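import Fermat.Agent.XSmall.Irreducible

/-!
# The Frey curve for `p = 5, 7, 13`

`frey_irreducible`: the mod `p` representation of the Frey curve is irreducible, and hence has no
stable cofixed line (`frey_no_cofixed`). Its discriminant is a square, so the criteria of
`XSmall.Irreducible` apply once `c₆ ≠ 0`.
-/

set_option autoImplicit false

noncomputable section

namespace FLTAgent.XSmall

open WeierstrassCurve WeierstrassCurve.Affine WeierstrassCurve.Affine.Point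

local notation "Qbar" => AlgebraicClosure ℚ

lemma frey_invariants (P : FreyPackage) :
    P.freyCurve.c₄ = ((P.a : ℚ) ^ P.p) ^ 2 + (P.a : ℚ) ^ P.p * (P.b : ℚ) ^ P.p
        + ((P.b : ℚ) ^ P.p) ^ 2 ∧
      P.freyCurve.Δ = ((P.a : ℚ) ^ P.p * (P.b : ℚ) ^ P.p
        * ((P.a : ℚ) ^ P.p + (P.b : ℚ) ^ P.p)) ^ 2 / 256 := by
  constructor
  · simp only [WeierstrassCurve.c₄, b₂, b₄, FreyPackage.freyCurve]; ring
  · simp only [WeierstrassCurve.Δ, b₂, b₄, b₆, b₈, FreyPackage.freyCurve]; ring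

lemma frey_G_ne_zero (P : FreyPackage) :
    ((P.a : ℚ) ^ P.p - (P.b : ℚ) ^ P.p) * (2 * (P.a : ℚ) ^ P.p + (P.b : ℚ) ^ P.p)
      * ((P.a : ℚ) ^ P.p + 2 * (P.b : ℚ) ^ P.p) ≠ 0 := by
  have ha : Odd P.a := by
    have h2 : ((P.a - 3 : ℤ) : ZMod 4) = 0 := by push_cast; rw [P.ha4]; exact sub_self _
    obtain ⟨k, hk⟩ := (ZMod.intCast_zmod_eq_zero_iff_dvd _ 4).1 h2
    exact ⟨2 * k + 1, by push_cast at hk; linarith⟩
  have hb : (2 : ℤ) ∣ P.b := (ZMod.intCast_zmod_eq_zero_iff_dvd _ 2).1 P.hb2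
  obtain ⟨A, hA⟩ : ∃ A, A = P.a ^ P.p := ⟨_, rfl⟩
  obtain ⟨B, hB⟩ : ∃ B, B = P.b ^ P.p := ⟨_, rfl⟩
  have hAo : Odd A := hA ▸ ha.pow
  have hB4 : (4 : ℤ) ∣ B := by
    rw [hB, show (4 : ℤ) = 2 ^ 2 by norm_num]
    exact (pow_dvd_pow 2 (by have := P.hp5; omega)).trans (pow_dvd_pow_of_dvd hb P.p)
  have h : (A - B) * (2 * A + B) * (A + 2 * B) ≠ 0 := by
    obtain ⟨i, rfl⟩ := hAo
    obtain ⟨j, rfl⟩ := hB4
    refine mul_ne_zero (mul_ne_zero ?_ ?_) ?_ <;> intro h <;> omega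
  rw [hA, hB] at h
  exact_mod_cast h

/-- The mod `p` representation of the Frey curve is irreducible for `p = 5, 7, 13`. -/
theorem frey_irreducible (P : FreyPackage) (hp : P.p = 5 ∨ P.p = 7 ∨ P.p = 13) :
    GaloisRepIsIrreducible (K := Qbar) ℚ P.freyCurve P.p := by
  obtain ⟨hc4, hΔ⟩ := frey_invariants P
  have hG := frey_G_ne_zero P
  have hA0 : (P.a : ℚ) ^ P.p ≠ 0 := pow_ne_zero _ (Int.cast_ne_zero.2 P.ha0)
  have hB0 : (P.b : ℚ) ^ P.p ≠ 0 := pow_ne_zero _ (Int.cast_ne_zero.2 P.hb0)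
  have hC0 : (P.a : ℚ) ^ P.p + (P.b : ℚ) ^ P.p ≠ 0 := by
    have h := congrArg (fun z : ℤ => (z : ℚ)) P.hFLT
    push_cast at h
    rw [h]
    exact pow_ne_zero _ (Int.cast_ne_zero.2 P.hc0)
  have hell : P.freyCurve.IsElliptic := by
    refine EllTorsion.isElliptic_of_Δ_ne_zero ?_
    rw [hΔ]; positivity
  generalize (P.a : ℚ) ^ P.p = A at *
  generalize (P.b : ℚ) ^ P.p = B at *
  have hδ : P.freyCurve.Δ = (A * B * (A + B) / 16) ^ 2 := by rw [hΔ]; ring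
  have hc6 : P.freyCurve.c₆ ≠ 0 := by
    intro h0
    apply hG
    have := P.freyCurve.c_relation
    rw [h0, hc4, hΔ] at this
    have h2 : ((A - B) * (2 * A + B) * (A + 2 * B)) ^ 2 = 0 := by linear_combination (-4) * this
    exact pow_eq_zero_iff two_ne_zero |>.1 h2
  rcases hp with h | h | h <;> rw [h]
  · exact irreducible5 hδ hc6
  · exact irreducible7 hc4 hΔ hG
  · exact irreducible13 hδ hc6

/-- It has no stable cofixed line. -/
theorem frey_no_cofixed (P : FreyPackage) (hp : P.p = 5 ∨ P.p = 7 ∨ P.p = 13) :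
    ¬ HasGaloisStableCofixedLine (K := Qbar) ℚ P.freyCurve P.p := by
  rintro ⟨N, hN, hbot, htop, -⟩
  rcases (frey_irreducible P hp).2 N hN with h | h
  · exact hbot h
  · exact htop h

end FLTAgent.XSmall
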