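import Mathlib

/-!
# Elementary descents for the modular curves behind `X₀(5)`, `X₀(7)`, `X₀(13)`

* `quartic_descent`: `Y⁴ + 2hX²Y² + bX⁴ = Z²` (with `b = h² + 4`, `h = 3 (mod 8)`,
  `b` a prime power) has no coprime solution with `X ≠ 0`.
* `curve13`, `curve20`: its consequences `t = 0` for `t (t² + 6t + 13) = w²` and
  `t (t² + 22t + 125) = w²`.
-/

set_option autoImplicit false

namespace FLTAgent.XSmall

lemma odd_sq_eq {x : ℤ} (hx : Odd x) : ∃ i : ℤ, x ^ 2 = 8 * i + 1 := by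
  obtain ⟨k, rfl⟩ := hx
  obtain ⟨r, hr⟩ := Int.even_mul_succ_self k
  exact ⟨r, by linear_combination 4 * hr⟩

lemma even_sq_eq {x : ℤ} (hx : Even x) : ∃ i : ℤ, x ^ 2 = 4 * i := by
  obtain ⟨k, rfl⟩ := hx
  exact ⟨k ^ 2, by ring⟩

lemma sq_of_coprime_mul_eq_sq {a b c : ℤ} (ha : 0 ≤ a) (hab : IsCoprime a b)
    (h : a * b = c ^ 2) : ∃ x : ℤ, a = x ^ 2 := by
  obtain ⟨x, hx | hx⟩ := Int.sq_of_isCoprime hab h
  · exact ⟨x, hx⟩
  · exact ⟨0, by nlinarith [sq_nonneg x]⟩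

lemma fourth_of_coprime_mul_eq {a b c : ℤ} (ha : 0 ≤ a) (hab : IsCoprime a b)
    (h : a * b = c ^ 4) : ∃ x : ℤ, a = x ^ 4 := by
  obtain ⟨x, hx⟩ := exists_associated_pow_of_mul_eq_pow'
    hab h
  rcases Int.associated_iff.1 hx with hx | hx
  · exact ⟨x, hx.symm⟩
  · refine ⟨0, ?_⟩
    have : 0 ≤ x ^ 4 := by positivity
    simp only [ne_eq, OfNat.ofNat_ne_zero, not_false_eq_true, zero_pow]
    omega

lemma isCoprime_of_forall_prime {a b : ℤ} (h : ∀ l : ℤ, Prime l → l ∣ a → l ∣ b → False) :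
    IsCoprime a b := by
  apply Int.isCoprime_iff_gcd_eq_one.2
  by_contra hne
  obtain ⟨l, hl, hdvd⟩ := Nat.exists_prime_and_dvd hne
  have h2 := Int.natCast_dvd_natCast.2 hdvd
  exact h l (Nat.prime_iff_prime_int.1 hl)
    (h2.trans (Int.gcd_dvd_left _ _)) (h2.trans (Int.gcd_dvd_right _ _))

lemma false_of_prime_dvd {a b l : ℤ} (h : IsCoprime a b) (hl : Prime l)
    (ha : l ∣ a) (hb : l ∣ b) : False :=
  hl.not_isUnit (h.isUnit_of_dvd' ha hb)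

/-- Splitting a product of coprime numbers `U * V = b * f⁴` (`b` a prime power). -/
lemma split_fourth {p b U V f : ℤ} {k : ℕ} (hp : Prime p) (hb : b = p ^ k) (hb0 : 0 < b)
    (hU : 0 ≤ U) (hV : 0 ≤ V) (hco : IsCoprime U V) (h : U * V = b * f ^ 4) :
    ∃ α β : ℤ, f ^ 2 = α ^ 2 * β ^ 2 ∧ IsCoprime α β ∧
      ((U = α ^ 4 ∧ V = b * β ^ 4) ∨ (U = b * β ^ 4 ∧ V = α ^ 4)) := by
  have key : ∀ U V : ℤ, 0 ≤ U → 0 ≤ V → IsCoprime U V → U * V = b * f ^ 4 → b ∣ V →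
      ∃ α β : ℤ, f ^ 2 = α ^ 2 * β ^ 2 ∧ IsCoprime α β ∧ U = α ^ 4 ∧ V = b * β ^ 4 := by
    intro U V hU hV hco h hdvd
    obtain ⟨W, rfl⟩ := hdvd
    have hW : 0 ≤ W := nonneg_of_mul_nonneg_right hV hb0
    have h' : U * W = f ^ 4 := by
      apply mul_left_cancel₀ hb0.ne'
      linear_combination h
    have hco' : IsCoprime U W := hco.of_mul_right_right
    obtain ⟨α, rfl⟩ := fourth_of_coprime_mul_eq hU hco' h'
    obtain ⟨β, rfl⟩ := fourth_of_coprime_mul_eq hW hco'.symm (by rw [mul_comm]; exact h')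
    refine ⟨α, β, ?_, (IsCoprime.pow_iff (by norm_num) (by norm_num)).1 hco', rfl, rfl⟩
    have : (f ^ 2) ^ 2 = (α ^ 2 * β ^ 2) ^ 2 := by linear_combination -h'
    exact (sq_eq_sq₀ (sq_nonneg f) (by positivity)).1 this
  by_cases hd : p ∣ U
  · have hnd : ¬ p ∣ V := fun h' => false_of_prime_dvd hco hp hd h'
    have : IsCoprime b V := by rw [hb]; exact ((hp.coprime_iff_not_dvd).2 hnd).pow_left
    have hbU : b ∣ U := this.dvd_of_dvd_mul_right ⟨f ^ 4, by rw [h]⟩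
    obtain ⟨α, β, e, c, e1, e2⟩ := key V U hV hU hco.symm (by linarith) hbU
    exact ⟨α, β, e, c, Or.inr ⟨e2, e1⟩⟩
  · have : IsCoprime b U := by rw [hb]; exact ((hp.coprime_iff_not_dvd).2 hd).pow_left
    have hbV : b ∣ V := this.dvd_of_dvd_mul_left ⟨f ^ 4, by rw [h]⟩
    obtain ⟨α, β, e, c, e1, e2⟩ := key U V hU hV hco h hbV
    exact ⟨α, β, e, c, Or.inl ⟨e1, e2⟩⟩

set_option maxHeartbeats 800000 in
/-- The infinite descent on the torsor `Y⁴ + 2hX²Y² + bX⁴ = Z²`. -/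
theorem quartic_descent {h b p : ℤ} {k : ℕ} (hbh : b = h ^ 2 + 4) (hh : h % 8 = 3)
    (hp : Prime p) (hbp : b = p ^ k) (hnr : ∀ g f : ℤ, p ^ 2 ∣ b → p ∣ g ^ 2 - 2 * h * f ^ 2 →
      p ∣ f)
    {X Y Z : ℤ} (hco : IsCoprime X Y)
    (heq : Y ^ 4 + 2 * h * X ^ 2 * Y ^ 2 + b * X ^ 4 = Z ^ 2) : X = 0 := by
  induction hn : X.natAbs using Nat.strong_induction_on generalizing X Y Z with
  | _ n ih =>
  by_contra hX
  obtain ⟨h', hh'⟩ : ∃ h' : ℤ, h = 8 * h' + 3 := ⟨h / 8, by omega⟩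
  have hb0 : 0 < b := by nlinarith
  rcases Int.even_or_odd X with hXe | hXo
  swap
  · -- `X` odd is impossible
    obtain ⟨i, hi⟩ := odd_sq_eq hXo
    rcases Int.even_or_odd Y with hYe | hYo
    · obtain ⟨j, hj⟩ := even_sq_eq hYe
      have e : Z ^ 2 = 8 * (2 * j ^ 2 + h * (8 * i + 1) * j + b * (8 * i ^ 2 + 2 * i)
          + 8 * h' ^ 2 + 6 * h' + 1) + 5 := by
        have : Y ^ 4 + 2 * h * X ^ 2 * Y ^ 2 + b * X ^ 4
            = (Y ^ 2) ^ 2 + 2 * h * X ^ 2 * Y ^ 2 + b * (X ^ 2) ^ 2 := by ring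
        rw [heq, hi, hj] at this
        rw [this, hbh, hh']; ring
      rcases Int.even_or_odd Z with hZ | hZ
      · obtain ⟨z, hz⟩ := even_sq_eq hZ; omega
      · obtain ⟨z, hz⟩ := odd_sq_eq hZ; omega
    · obtain ⟨j, hj⟩ := odd_sq_eq hYo
      have e : Z ^ 2 = 4 * ((4 * j + 2 + 4 * h * i + 4 * h' + 0) ^ 2 + (8 * i + 1) ^ 2) := by
        have : Y ^ 4 + 2 * h * X ^ 2 * Y ^ 2 + b * X ^ 4
            = (Y ^ 2) ^ 2 + 2 * h * X ^ 2 * Y ^ 2 + b * (X ^ 2) ^ 2 := by ring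
        rw [heq, hi, hj] at this
        rw [this, hbh, hh']; ring
      have hev : Even Z := by
        refine Int.not_odd_iff_even.1 fun hZ => ?_
        obtain ⟨z, hz⟩ := odd_sq_eq hZ; omega
      obtain ⟨z, rfl⟩ := hev
      have e2 : z ^ 2 = 4 * (2 * j + 1 + 2 * h * i + 2 * h') ^ 2 + (8 * i + 1) ^ 2 := by
        apply mul_left_cancel₀ (four_ne_zero : (4 : ℤ) ≠ 0)
        linear_combination e
      obtain ⟨s, hs⟩ := odd_sq_eq (x := 2 * j + 1 + 2 * h * i + 2 * h')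
        ⟨j + h * i + h', by ring⟩
      have e3 : z ^ 2 = 8 * (4 * s + 8 * i ^ 2 + 2 * i) + 5 := by
        rw [e2, hs]; ring
      rcases Int.even_or_odd z with hz' | hz'
      · obtain ⟨w, hw⟩ := even_sq_eq hz'; omega
      · obtain ⟨w, hw⟩ := odd_sq_eq hz'; omega
  obtain ⟨X₁, rfl⟩ := hXe
  have hYo : Odd Y := by
    refine Int.not_even_iff_odd.1 fun hY => ?_
    exact false_of_prime_dvd hco Int.prime_two ⟨X₁, by ring⟩ (even_iff_two_dvd.1 hY)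
  have hY0 : Y ≠ 0 := by rintro rfl; simp at hYo
  have hX1 : X₁ ≠ 0 := by simpa using hX
  have hco1 : IsCoprime X₁ Y := by
    have := hco
    rw [show X₁ + X₁ = 2 * X₁ by ring] at this
    exact this.of_mul_left_right
  set x := Y ^ 2 + 4 * h * X₁ ^ 2 with hx
  have hx2 : Odd x := by
    refine Odd.add_even hYo.pow ?_
    exact ⟨2 * h * X₁ ^ 2, by ring⟩
  have hpy : PythagoreanTriple x (8 * X₁ ^ 2) |Z| := by
    show x * x + 8 * X₁ ^ 2 * (8 * X₁ ^ 2) = |Z| * |Z|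
    rw [abs_mul_abs_self, ← sq Z, ← heq, hbh, hx]; ring
  have hgcd : Int.gcd x (8 * X₁ ^ 2) = 1 := by
    apply Int.isCoprime_iff_gcd_eq_one.1
    refine isCoprime_of_forall_prime fun l hl h1 h2 => ?_
    have hlX : l ∣ X₁ := by
      rcases hl.dvd_or_dvd h2 with h3 | h3
      · have h3' : l ∣ (2 : ℤ) := hl.dvd_of_dvd_pow (n := 3) (by norm_num; exact h3)
        exfalso
        have h4 : Associated l 2 := hl.associated_of_dvd Int.prime_two h3'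
        exact (Int.not_even_iff_odd.2 hx2) (even_iff_two_dvd.2 (h4.symm.dvd.trans h1))
      · exact hl.dvd_of_dvd_pow h3
    have : l ∣ Y ^ 2 := by
      have e : Y ^ 2 = x - X₁ * (4 * h * X₁) := by rw [hx]; ring
      rw [e]; exact dvd_sub h1 (hlX.mul_right _)
    exact false_of_prime_dvd hco1 hl hlX (hl.dvd_of_dvd_pow this)
  have hZ0 : 0 < |Z| := by
    rw [abs_pos]; rintro rfl
    have hlt : 0 < x * x + 8 * X₁ ^ 2 * (8 * X₁ ^ 2) := by
      have h1 : 0 < x * x := mul_self_pos.2 (by intro h0; simp [h0] at hx2)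
      have h2 : 0 ≤ 8 * X₁ ^ 2 * (8 * X₁ ^ 2) := mul_self_nonneg _
      omega
    have := hpy.eq; simp only [abs_zero, mul_zero] at this; omega
  obtain ⟨m, n, hxmn, hymn, -, hmn, hpar, hm⟩ :=
    hpy.coprime_classification' hgcd (Int.odd_iff.1 hx2) hZ0
  have hmnX : m * n = (2 * X₁) ^ 2 := by linarith
  have hmnpos : 0 < m * n := by rw [hmnX]; positivity
  have hn0 : 0 ≤ n := by nlinarith
  have hcomn : IsCoprime m n := Int.isCoprime_iff_gcd_eq_one.2 hmn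
  obtain ⟨g, rfl⟩ := sq_of_coprime_mul_eq_sq hm hcomn hmnX
  obtain ⟨F, rfl⟩ := sq_of_coprime_mul_eq_sq hn0 hcomn.symm (by rw [mul_comm]; exact hmnX)
  have hx' : Y ^ 2 + 4 * h * X₁ ^ 2 = g ^ 4 - F ^ 4 := by rw [← hx, hxmn]; ring
  have hgF : g ^ 2 * F ^ 2 = 4 * X₁ ^ 2 := by linarith
  -- the even one is `F`
  have hgo : Odd g ∧ Even F := by
    rcases hpar with ⟨h1, h2⟩ | ⟨h1, h2⟩
    · exfalso
      have hge : Even g := (Int.even_pow.1 (Int.even_iff.2 h1)).1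
      have hFo : Odd F := (Int.odd_pow' (by norm_num)).1 (Int.odd_iff.2 h2)
      obtain ⟨i, hi⟩ := even_sq_eq hge
      obtain ⟨j, hj⟩ := odd_sq_eq hFo
      obtain ⟨l, hl⟩ := odd_sq_eq hYo
      have : g ^ 4 - F ^ 4 = 4 * (4 * i ^ 2 - 16 * j ^ 2 - 4 * j) - 1 := by
        rw [show g ^ 4 = (g ^ 2) ^ 2 by ring, show F ^ 4 = (F ^ 2) ^ 2 by ring, hi, hj]; ring
      rw [this, hl, mul_assoc 4 h] at hx'
      omega
    · exact ⟨(Int.odd_pow' (by norm_num)).1 (Int.odd_iff.2 h1),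
        (Int.even_pow.1 (Int.even_iff.2 h2)).1⟩
  obtain ⟨hgo, f, rfl⟩ := hgo
  have hcgf : IsCoprime g f := by
    have h1 : IsCoprime g (f + f) :=
      (IsCoprime.pow_iff (by norm_num) (by norm_num)).1 hcomn
    rw [show f + f = 2 * f by ring] at h1
    exact h1.of_mul_right_right
  have hX1' : g ^ 2 * f ^ 2 = X₁ ^ 2 := by
    apply mul_left_cancel₀ (four_ne_zero : (4 : ℤ) ≠ 0)
    linear_combination hgF
  have hf0 : f ≠ 0 := by rintro rfl; exact hX1 (by simpa using hX1'.symm)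
  have hg0 : g ≠ 0 := by rintro rfl; simp at hgo
  have key : (g ^ 2 - 2 * h * f ^ 2) ^ 2 - Y ^ 2 = 4 * b * f ^ 4 := by
    rw [hbh]; linear_combination -1 * hx' - 4 * h * hX1'
  -- halves
  obtain ⟨U, hU⟩ : (2 : ℤ) ∣ (g ^ 2 - 2 * h * f ^ 2) - Y :=
    even_iff_two_dvd.1 (Odd.sub_odd (hgo.pow.sub_even ⟨h * f ^ 2, by ring⟩) hYo)
  obtain ⟨V, hV⟩ : (2 : ℤ) ∣ (g ^ 2 - 2 * h * f ^ 2) + Y :=
    even_iff_two_dvd.1 (Odd.add_odd (hgo.pow.sub_even ⟨h * f ^ 2, by ring⟩) hYo)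
  have hUV : U * V = b * f ^ 4 := by
    have : (2 * U) * (2 * V) = 4 * b * f ^ 4 := by rw [← hU, ← hV, ← key]; ring
    apply mul_left_cancel₀ (four_ne_zero : (4 : ℤ) ≠ 0)
    linear_combination this
  have hsum : U + V = g ^ 2 - 2 * h * f ^ 2 := by linarith
  have hcoUV : IsCoprime U V := by
    refine isCoprime_of_forall_prime fun l hl h1 h2 => ?_
    have hw : l ∣ g ^ 2 - 2 * h * f ^ 2 := hsum ▸ dvd_add h1 h2
    have hl2 : l * l ∣ b * f ^ 4 := hUV ▸ mul_dvd_mul h1 h2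
    have hlf : l ∣ f := by
      by_contra hlf
      have hco2 : IsCoprime (l * l) (f ^ 4) := by
        have := (hl.coprime_iff_not_dvd).2 hlf
        exact ((this.mul_left this).pow_right)
      have h3 : l * l ∣ b := hco2.dvd_of_dvd_mul_right hl2
      have h4 : l ∣ p := hl.dvd_of_dvd_pow (n := k) (hbp ▸ (dvd_mul_right l l).trans h3)
      have hass : Associated l p := hl.associated_of_dvd hp h4
      have h5 : p ^ 2 ∣ b := (hass.mul_mul hass).symm.dvd.trans h3 |> fun h => by rwa [sq]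
      exact hlf (hass.dvd.trans (hnr g f h5 (hass.symm.dvd.trans hw)))
    have hlg : l ∣ g := by
      apply hl.dvd_of_dvd_pow (n := 2)
      have e : g ^ 2 = (g ^ 2 - 2 * h * f ^ 2) + f * (2 * h * f) := by ring
      rw [e]; exact dvd_add hw (hlf.mul_right _)
    exact false_of_prime_dvd hcgf hl hlg hlf
  -- signs
  have hpos : 0 ≤ U ∧ 0 ≤ V ∨ U ≤ 0 ∧ V ≤ 0 := mul_nonneg_iff.1 (by rw [hUV]; positivity)
  have hneg : ¬ (U ≤ 0 ∧ V ≤ 0) := by
    rintro ⟨h1, h2⟩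
    obtain ⟨α, β, e, -, hcase⟩ := split_fourth (f := f) hp hbp hb0 (neg_nonneg.2 h1) (neg_nonneg.2 h2)
      hcoUV.neg_neg (by linear_combination hUV)
    have hβ : β ≠ 0 := by rintro rfl; simp [hf0] at e
    have hs : -(U + V) = α ^ 4 + b * β ^ 4 := by rcases hcase with ⟨a, c⟩ | ⟨a, c⟩ <;> linarith
    have : g ^ 2 = -((α ^ 2 - h * β ^ 2) ^ 2 + 4 * β ^ 4) := by
      rw [hbh] at hs; linear_combination -hsum - hs + 2 * h * e
    have h4 : 0 < (α ^ 2 - h * β ^ 2) ^ 2 + 4 * β ^ 4 := by positivity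
    nlinarith [sq_nonneg g]
  obtain ⟨hU0, hV0⟩ := hpos.resolve_right hneg
  obtain ⟨α, β, e, hαβ, hcase⟩ := split_fourth hp hbp hb0 hU0 hV0 hcoUV hUV
  have hs : U + V = α ^ 4 + b * β ^ 4 := by rcases hcase with ⟨a, c⟩ | ⟨a, c⟩ <;> linarith
  have hnew : α ^ 4 + 2 * h * β ^ 2 * α ^ 2 + b * β ^ 4 = g ^ 2 := by
    linear_combination hsum - hs - 2 * h * e
  have hαne : α ≠ 0 := by rintro rfl; simp [hf0] at e
  have hβne : β ≠ 0 := by rintro rfl; simp [hf0] at e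
  have hlt : β.natAbs < (X₁ + X₁).natAbs := by
    have hα1 : (1 : ℤ) ≤ α ^ 2 := sq_pos_of_ne_zero hαne
    have hg1 : (1 : ℤ) ≤ g ^ 2 := sq_pos_of_ne_zero hg0
    have h1 : β ^ 2 ≤ f ^ 2 := by
      rw [e]; exact le_mul_of_one_le_left (sq_nonneg β) hα1
    have h2 : f ^ 2 ≤ X₁ ^ 2 := by
      rw [← hX1']; exact le_mul_of_one_le_left (sq_nonneg f) hg1
    have h3 : β.natAbs ≤ X₁.natAbs := Int.natAbs_le_iff_sq_le.2 (h1.trans h2)
    omega
  exact hβne (ih _ (hn ▸ hlt) hαβ.symm hnew rfl)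

theorem quartic13 {X Y Z : ℤ} (hco : IsCoprime X Y)
    (heq : Y ^ 4 + 6 * X ^ 2 * Y ^ 2 + 13 * X ^ 4 = Z ^ 2) : X = 0 := by
  refine quartic_descent (h := 3) (b := 13) (p := 13) (k := 1) (by norm_num) (by norm_num)
    (by norm_num) (by norm_num) ?_ (Z := Z) hco (by linear_combination heq)
  intro g f h; norm_num at h

lemma five_dvd_of_nonres {g f : ℤ} (h : (5 : ℤ) ∣ g ^ 2 - 22 * f ^ 2) : (5 : ℤ) ∣ f := by
  rw [show (5 : ℤ) = ((5 : ℕ) : ℤ) from rfl, ← ZMod.intCast_zmod_eq_zero_iff_dvd] at h ⊢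
  push_cast at h ⊢
  revert h
  generalize (g : ZMod 5) = x
  generalize (f : ZMod 5) = y
  revert x y
  decide

theorem quartic125 {X Y Z : ℤ} (hco : IsCoprime X Y)
    (heq : Y ^ 4 + 22 * X ^ 2 * Y ^ 2 + 125 * X ^ 4 = Z ^ 2) : X = 0 := by
  refine quartic_descent (h := 11) (b := 125) (p := 5) (k := 3) (by norm_num) (by norm_num)
    (by norm_num) (by norm_num) ?_ (Z := Z) hco (by linear_combination heq)
  intro g f _ h; exact five_dvd_of_nonres (by simpa using h)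

/-- `t (t² + 6t + 13)` is a square only for `t = 0`. -/
theorem curve13 {t w : ℚ} (heq : t * (t ^ 2 + 6 * t + 13) = w ^ 2) : t = 0 := by
  by_contra ht
  set u := t.num with hu
  set v : ℤ := (t.den : ℤ) with hv
  have hv0 : 0 < v := by rw [hv]; exact_mod_cast t.pos
  have hco : IsCoprime u v := by rw [hu, hv]; exact t.isCoprime_num_den
  have htu : t = u / v := by rw [hu, hv]; exact t.num_div_den.symm
  obtain ⟨z, hz⟩ : ∃ z : ℤ, v * (u * (u ^ 2 + 6 * u * v + 13 * v ^ 2)) = z ^ 2 := by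
    have hq : ((v * (u * (u ^ 2 + 6 * u * v + 13 * v ^ 2)) : ℤ) : ℚ) = (w * v ^ 2) ^ 2 := by
      rw [mul_pow, ← heq, htu]; push_cast; field_simp
    obtain ⟨z, hz⟩ := Rat.isSquare_intCast_iff.1 ⟨w * v ^ 2, by rw [hq]; ring⟩
    exact ⟨z, by rw [hz]; ring⟩
  have hcv : IsCoprime v (u * (u ^ 2 + 6 * u * v + 13 * v ^ 2)) := by
    refine hco.symm.mul_right ?_
    rw [show u ^ 2 + 6 * u * v + 13 * v ^ 2 = u ^ 2 + v * (6 * u + 13 * v) by ring]
    exact (hco.symm.pow_right).add_mul_left_right _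
  obtain ⟨Y, hY⟩ := sq_of_coprime_mul_eq_sq hv0.le hcv hz
  have hY0 : Y ≠ 0 := by intro h0; rw [h0] at hY; simp at hY; omega
  obtain ⟨z', hz'⟩ : ∃ z', u * (u ^ 2 + 6 * u * v + 13 * v ^ 2) = z' ^ 2 := by
    obtain ⟨z', hz'⟩ := sq_of_coprime_mul_eq_sq (a := u * (u ^ 2 + 6 * u * v + 13 * v ^ 2))
      (nonneg_of_mul_nonneg_right (by rw [hz]; positivity) hv0)
      hcv.symm (by rw [mul_comm]; exact hz)
    exact ⟨z', hz'⟩
  have hQ : 0 < u ^ 2 + 6 * u * v + 13 * v ^ 2 := by nlinarith [sq_nonneg (u + 3 * v)]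
  have hu0 : 0 ≤ u := nonneg_of_mul_nonneg_left (by rw [hz']; positivity) hQ
  by_cases hd : (13 : ℤ) ∣ u
  · obtain ⟨u', hu'⟩ := hd
    have hQ' : 0 ≤ 13 * u' ^ 2 + 6 * u' * v + v ^ 2 := by
      nlinarith [sq_nonneg (3 * u' + v), sq_nonneg u']
    obtain ⟨z'', hz''⟩ : (13 : ℤ) ∣ z' := by
      have hp : Prime (13 : ℤ) := by norm_num
      exact hp.dvd_of_dvd_pow (n := 2) ⟨u' * (u ^ 2 + 6 * u * v + 13 * v ^ 2),
        by rw [← hz', hu']; ring⟩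
    have hc : IsCoprime u' (13 * u' ^ 2 + 6 * u' * v + v ^ 2) := by
      rw [show 13 * u' ^ 2 + 6 * u' * v + v ^ 2 = v ^ 2 + u' * (13 * u' + 6 * v) by ring]
      have : IsCoprime u' v := by rw [hu'] at hco; exact hco.of_mul_left_right
      exact this.pow_right.add_mul_left_right _
    have he : u' * (13 * u' ^ 2 + 6 * u' * v + v ^ 2) = z'' ^ 2 := by
      apply mul_left_cancel₀ (show (169 : ℤ) ≠ 0 by norm_num)
      rw [show 169 * z'' ^ 2 = (13 * z'') ^ 2 by ring, ← hz'', ← hz', hu']; ring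
    obtain ⟨X, hX⟩ := sq_of_coprime_mul_eq_sq (by omega) hc he
    obtain ⟨W, hW⟩ := sq_of_coprime_mul_eq_sq hQ' hc.symm (by rw [mul_comm]; exact he)
    have hX0 : X = 0 := quartic13 (X := X) (Y := Y) (Z := W) (by
      have : IsCoprime u' v := by rw [hu'] at hco; exact hco.of_mul_left_right
      rw [hX, hY] at this; exact (IsCoprime.pow_iff (by norm_num) (by norm_num)).1 this)
      (by rw [← hW, hX, hY]; ring)
    apply ht; rw [htu, hu', hX, hX0]; simp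
  · have hp : Prime (13 : ℤ) := by norm_num
    have hc : IsCoprime u (u ^ 2 + 6 * u * v + 13 * v ^ 2) := by
      rw [show u ^ 2 + 6 * u * v + 13 * v ^ 2 = 13 * v ^ 2 + u * (u + 6 * v) by ring]
      exact (IsCoprime.mul_right ((hp.coprime_iff_not_dvd).2 hd).symm hco.pow_right)
        |>.add_mul_left_right _
    obtain ⟨X, hX⟩ := sq_of_coprime_mul_eq_sq hu0 hc hz'
    obtain ⟨W, hW⟩ := sq_of_coprime_mul_eq_sq hQ.le hc.symm (by rw [mul_comm]; exact hz')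
    exact hY0 (quartic13 (X := Y) (Y := X) (Z := W) (by
      rw [hX, hY] at hco; exact ((IsCoprime.pow_iff (by norm_num) (by norm_num)).1 hco).symm)
      (by rw [← hW, hX, hY]; ring))

lemma no_two_sq_mod5 {x y z : ℤ} (h : (5 : ℤ) ∣ 22 * (x ^ 2 * y ^ 2) - z ^ 2) :
    (5 : ℤ) ∣ x ∨ (5 : ℤ) ∣ y := by
  simp only [show (5 : ℤ) = ((5 : ℕ) : ℤ) from rfl, ← ZMod.intCast_zmod_eq_zero_iff_dvd] at h ⊢
  push_cast at h ⊢
  revert h
  generalize (x : ZMod 5) = x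
  generalize (y : ZMod 5) = y
  generalize (z : ZMod 5) = z
  revert x y z
  decide

/-- `t (t² + 22t + 125)` is a square only for `t = 0`. -/
theorem curve20 {t w : ℚ} (heq : t * (t ^ 2 + 22 * t + 125) = w ^ 2) : t = 0 := by
  by_contra ht
  set u := t.num with hu
  set v : ℤ := (t.den : ℤ) with hv
  have hv0 : 0 < v := by rw [hv]; exact_mod_cast t.pos
  have hco : IsCoprime u v := by rw [hu, hv]; exact t.isCoprime_num_den
  have htu : t = u / v := by rw [hu, hv]; exact t.num_div_den.symm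
  obtain ⟨z, hz⟩ : ∃ z : ℤ, v * (u * (u ^ 2 + 22 * u * v + 125 * v ^ 2)) = z ^ 2 := by
    have hq : ((v * (u * (u ^ 2 + 22 * u * v + 125 * v ^ 2)) : ℤ) : ℚ) = (w * v ^ 2) ^ 2 := by
      rw [mul_pow, ← heq, htu]; push_cast; field_simp
    obtain ⟨z, hz⟩ := Rat.isSquare_intCast_iff.1 ⟨w * v ^ 2, by rw [hq]; ring⟩
    exact ⟨z, by rw [hz]; ring⟩
  have hcv : IsCoprime v (u * (u ^ 2 + 22 * u * v + 125 * v ^ 2)) := by
    refine hco.symm.mul_right ?_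
    rw [show u ^ 2 + 22 * u * v + 125 * v ^ 2 = u ^ 2 + v * (22 * u + 125 * v) by ring]
    exact (hco.symm.pow_right).add_mul_left_right _
  obtain ⟨Y, hY⟩ := sq_of_coprime_mul_eq_sq hv0.le hcv hz
  have hY0 : Y ≠ 0 := by intro h0; rw [h0] at hY; simp at hY; omega
  obtain ⟨z', hz'⟩ := sq_of_coprime_mul_eq_sq (a := u * (u ^ 2 + 22 * u * v + 125 * v ^ 2))
      (nonneg_of_mul_nonneg_right (by rw [hz]; positivity) hv0)
      hcv.symm (by rw [mul_comm]; exact hz)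
  have hQ : 0 < u ^ 2 + 22 * u * v + 125 * v ^ 2 := by nlinarith [sq_nonneg (u + 11 * v)]
  have hu0 : 0 ≤ u := nonneg_of_mul_nonneg_left (by rw [hz']; positivity) hQ
  have hp : Prime (5 : ℤ) := by norm_num
  -- the general step after removing `5 ^ e` from `u`
  have step : ∀ (u' a c : ℤ) (z : ℤ), 0 ≤ u' → IsCoprime u' (c * v ^ 2) →
      u' * (a * u' ^ 2 + 22 * u' * v + c * v ^ 2) = z ^ 2 → 0 ≤ a → 0 ≤ c → 121 ≤ a * c →
      0 ≤ v → ∃ X W : ℤ, u' = X ^ 2 ∧ a * X ^ 4 + 22 * X ^ 2 * Y ^ 2 + c * Y ^ 4 = W ^ 2 := by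
    intro u' a c z hu' hc he ha hc0 hac hv'
    have hc' : IsCoprime u' (a * u' ^ 2 + 22 * u' * v + c * v ^ 2) := by
      rw [show a * u' ^ 2 + 22 * u' * v + c * v ^ 2 = c * v ^ 2 + u' * (a * u' + 22 * v) by ring]
      exact hc.add_mul_left_right _
    obtain ⟨X, hX⟩ := sq_of_coprime_mul_eq_sq hu' hc' he
    obtain ⟨W, hW⟩ := sq_of_coprime_mul_eq_sq (by positivity) hc'.symm
      (by rw [mul_comm]; exact he)
    exact ⟨X, W, hX, by rw [← hW, hX, hY]; ring⟩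
  by_cases hd : (5 : ℤ) ∣ u
  swap
  · have h5 : IsCoprime u (125 : ℤ) := by
      have := (((hp.coprime_iff_not_dvd).2 hd).symm).pow_right (n := 3); norm_num at this
      exact this
    obtain ⟨X, W, hX, hW⟩ := step u 1 125 z' hu0 (h5.mul_right hco.pow_right)
      (by rw [← hz']; ring) (by norm_num) (by norm_num) (by norm_num) hv0.le
    exact hY0 (quartic125 (X := Y) (Y := X) (Z := W) (by
      rw [hX, hY] at hco; exact ((IsCoprime.pow_iff (by norm_num) (by norm_num)).1 hco).symm)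
      (by rw [← hW]; ring))
  obtain ⟨u₁, hu₁⟩ := hd
  have hv5 : ¬ (5 : ℤ) ∣ v := fun h5 => false_of_prime_dvd hco hp ⟨u₁, hu₁⟩ h5
  have hY5 : ¬ (5 : ℤ) ∣ Y := fun h5 => hv5 (hY ▸ h5.pow (by norm_num))
  obtain ⟨z₁, hz₁⟩ : (5 : ℤ) ∣ z' :=
    hp.dvd_of_dvd_pow (n := 2) ⟨u₁ * (u ^ 2 + 22 * u * v + 125 * v ^ 2), by rw [← hz', hu₁]; ring⟩
  have he₁ : u₁ * (5 * u₁ ^ 2 + 22 * u₁ * v + 25 * v ^ 2) = z₁ ^ 2 := by
    apply mul_left_cancel₀ (show (25 : ℤ) ≠ 0 by norm_num)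
    rw [show 25 * z₁ ^ 2 = (5 * z₁) ^ 2 by ring, ← hz₁, ← hz', hu₁]; ring
  have hco₁ : IsCoprime u₁ v := by rw [hu₁] at hco; exact hco.of_mul_left_right
  by_cases hd₁ : (5 : ℤ) ∣ u₁
  swap
  · have h5 : IsCoprime u₁ (25 : ℤ) := by
      have := (((hp.coprime_iff_not_dvd).2 hd₁).symm).pow_right (n := 2); norm_num at this
      exact this
    obtain ⟨X, W, hX, hW⟩ := step u₁ 5 25 z₁ (by omega) (h5.mul_right hco₁.pow_right) he₁
      (by norm_num) (by norm_num) (by norm_num) hv0.le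
    rcases no_two_sq_mod5 (x := X) (y := Y) (z := W)
      ⟨-(X ^ 4 + 5 * Y ^ 4), by rw [← hW]; ring⟩ with h5 | h5
    · exact hd₁ (hX ▸ h5.pow (by norm_num))
    · exact hY5 h5
  obtain ⟨u₂, hu₂⟩ := hd₁
  obtain ⟨z₂, hz₂⟩ : (5 : ℤ) ∣ z₁ :=
    hp.dvd_of_dvd_pow (n := 2)
      ⟨u₂ * (5 * u₁ ^ 2 + 22 * u₁ * v + 25 * v ^ 2), by rw [← he₁, hu₂]; ring⟩
  have he₂ : u₂ * (25 * u₂ ^ 2 + 22 * u₂ * v + 5 * v ^ 2) = z₂ ^ 2 := by
    apply mul_left_cancel₀ (show (25 : ℤ) ≠ 0 by norm_num)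
    rw [show 25 * z₂ ^ 2 = (5 * z₂) ^ 2 by ring, ← hz₂, ← he₁, hu₂]; ring
  have hco₂ : IsCoprime u₂ v := by rw [hu₂] at hco₁; exact hco₁.of_mul_left_right
  by_cases hd₂ : (5 : ℤ) ∣ u₂
  swap
  · obtain ⟨X, W, hX, hW⟩ := step u₂ 25 5 z₂ (by omega)
      ((((hp.coprime_iff_not_dvd).2 hd₂).symm).mul_right hco₂.pow_right) he₂
      (by norm_num) (by norm_num) (by norm_num) hv0.le
    rcases no_two_sq_mod5 (x := X) (y := Y) (z := W)
      ⟨-(5 * X ^ 4 + Y ^ 4), by rw [← hW]; ring⟩ with h5 | h5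
    · exact hd₂ (hX ▸ h5.pow (by norm_num))
    · exact hY5 h5
  obtain ⟨u₃, hu₃⟩ := hd₂
  obtain ⟨z₃, hz₃⟩ : (5 : ℤ) ∣ z₂ :=
    hp.dvd_of_dvd_pow (n := 2)
      ⟨u₃ * (25 * u₂ ^ 2 + 22 * u₂ * v + 5 * v ^ 2), by rw [← he₂, hu₃]; ring⟩
  have he₃ : u₃ * (125 * u₃ ^ 2 + 22 * u₃ * v + 1 * v ^ 2) = z₃ ^ 2 := by
    apply mul_left_cancel₀ (show (25 : ℤ) ≠ 0 by norm_num)
    rw [show 25 * z₃ ^ 2 = (5 * z₃) ^ 2 by ring, ← hz₃, ← he₂, hu₃]; ring
  have hco₃ : IsCoprime u₃ v := by rw [hu₃] at hco₂; exact hco₂.of_mul_left_right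
  obtain ⟨X, W, hX, hW⟩ := step u₃ 125 1 z₃ (by omega) (by simpa using hco₃.pow_right) he₃
      (by norm_num) (by norm_num) (by norm_num) hv0.le
  have hX0 : X = 0 := quartic125 (X := X) (Y := Y) (Z := W) (by
    rw [hX, hY] at hco₃; exact (IsCoprime.pow_iff (by norm_num) (by norm_num)).1 hco₃)
    (by rw [← hW]; ring)
  apply ht; rw [htu, hu₁, hu₂, hu₃, hX, hX0]; simp

end FLTAgent.XSmall
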