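import Fermat.Agent.XSmall.Level57

/-!
# The Hauptmodul of `X₀(13)` at a point of exact order `13`

`level13`: for a point of order `13` the value `t = tPar13` at its Tate parameters satisfies
`c₄³ t = (t² + 5t + 13) (t⁴ + 7t³ + 20t² + 19t + 1)³ Δ`, proved on the parametrisation of
`X₁(13)` by `y² + (x³ + x² + 1) y = x² + x`.
-/

set_option autoImplicit false

namespace FLTAgent.XSmall

open WeierstrassCurve WeierstrassCurve.Affine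

variable {K : Type*} [Field K]

/-- The coordinate on `X₁(13)`. -/
def xPar13 (b c : K) : K := (b - c) * (b - c - c ^ 2) / (b ^ 2 - b * c - c ^ 3)

/-- Hauptmodul of `X₀(13)` in terms of the Tate parameters. -/
def tPar13 (b c : K) : K :=
  -(xPar13 b c ^ 3 + 4 * xPar13 b c ^ 2 + xPar13 b c - 1) / (xPar13 b c * (xPar13 b c + 1))

variable [DecidableEq K]

/-- The relation cutting out `X₁(13)`. -/
lemma rel13 {r s : K} (hb : r * s * (r - 1) ≠ 0) (hc : s * (r - 1) ≠ 0) (hs : s ≠ 1)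
    (hrs : r ≠ s) (h13 : 13 • origin (c := s * (r - 1)) hb = 0) :
    r * (-1 + 3 * s - 6 * s ^ 2 + s ^ 3) + r ^ 2 * (2 - 4 * s + 9 * s ^ 2 - 5 * s ^ 3 + s ^ 4)
      + s ^ 3 - r ^ 3 = 0 := by
  obtain ⟨h', e6⟩ := six_nsmul_origin hb hc hs
  have hs' : s - 1 ≠ 0 := sub_ne_zero.2 hs
  have hrs' : r - s ≠ 0 := sub_ne_zero.2 hrs
  have hX : s * (r - 1) * (r - s) / (s - 1) ^ 2 ≠ 0 :=
    div_ne_zero (mul_ne_zero hc hrs') (pow_ne_zero 2 hs')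
  rw [show (13 : ℕ) = 6 + 1 + 6 from rfl, add_nsmul, add_nsmul, one_nsmul, e6] at h13
  have h7 := eq_neg_of_add_eq_zero_left h13
  rw [origin, Point.add_of_X_ne hX, Point.neg_some] at h7
  have hx := ((Point.some.injEq ..).mp h7).1
  rw [slope_of_X_ne hX] at hx
  simp only [addX, tnf_a₁, tnf_a₂, sub_zero] at hx
  set X6 := s * (r - 1) * (r - s) / (s - 1) ^ 2 with hX6
  set q := (r * (s - 1) ^ 3 - s * (r - s) ^ 2) / ((s - 1) * (r - s)) with hqdef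
  obtain ⟨hs0, hr1⟩ := mul_ne_zero_iff.1 hc
  have hY : (-(s * (r - s) / (s - 1)) * X6 - (1 - s * (r - 1)) * X6 + r * s * (r - 1)) / X6
      = q - (1 - s * (r - 1)) := by
    rw [hX6, hqdef]; field_simp; ring
  have hX6' : X6 * (s - 1) ^ 2 = s * (r - 1) * (r - s) := by rw [hX6]; field_simp
  have hq : q * ((s - 1) * (r - s)) = r * (s - 1) ^ 3 - s * (r - s) ^ 2 := by
    rw [hqdef]; field_simp
  rw [hY] at hx
  apply mul_left_cancel₀ hc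
  rw [mul_zero]
  linear_combination ((s - 1) ^ 2 * (r - s) ^ 2) * hx + 2 * (r - s) ^ 2 * hX6'
    - (q * ((s - 1) * (r - s)) + (r * (s - 1) ^ 3 - s * (r - s) ^ 2)
      - (1 - s * (r - 1)) * ((s - 1) * (r - s))) * hq

/-- Parametrisation by the curve `y² + (x³ + x² + 1) y = x² + x`. -/
lemma param13 {b c : K} (hb : b ≠ 0) (h13 : 13 • origin (c := c) hb = 0)
    (hnd : ∀ k, ¬ 13 ∣ k → k • origin (c := c) hb ≠ 0) :
    ∃ x y : K, y ^ 2 + (x ^ 3 + x ^ 2 + 1) * y - (x ^ 2 + x) = 0 ∧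
      x ≠ 0 ∧ x + 1 ≠ 0 ∧ y ≠ 0 ∧ y + 1 ≠ 0 ∧ 1 + y - x * y ≠ 0 ∧ 1 - x * y ≠ 0 ∧
      b = -(x * y * (1 - x * y) * (1 + y - x * y)) / (y + 1) ∧
      c = -(x * y * (1 + y - x * y)) / (y + 1) ∧
      b ^ 2 - b * c - c ^ 3 ≠ 0 ∧ xPar13 b c = x := by
  have hc : c ≠ 0 := c_ne_zero_of hb (hnd 4 (by norm_num))
  have hbc : b - c ≠ 0 := sub_ne_zero.2 (b_ne_c_of hb (hnd 5 (by norm_num)))
  obtain ⟨r, s, rfl, rfl⟩ : ∃ r s : K, b = r * s * (r - 1) ∧ c = s * (r - 1) :=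
    ⟨b / c, c ^ 2 / (b - c), by field_simp, by field_simp⟩
  have hr : r ≠ 0 := fun h => hb (by rw [h, zero_mul, zero_mul])
  have hs0 : s ≠ 0 := fun h => hc (by rw [h, zero_mul])
  have hr1 : r - 1 ≠ 0 := fun h => hc (by rw [h, mul_zero])
  have hs : s ≠ 1 := by
    rintro rfl
    obtain ⟨h5, e5⟩ := five_nsmul_origin hb hc
    have hy : r * (1 : K) ^ 2 * (r - 1) = r * 1 * (r - 1) := by ring
    obtain ⟨h5', e5'⟩ := some_congr (h := h5) (show r * (1 : K) * (1 - 1) = 0 by ring) hy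
    rw [e5'] at e5
    refine hnd 6 (by norm_num) ?_
    rw [succ_nsmul, e5]
    exact Point.add_of_Y_eq rfl (by simp [negY])
  have hrs : r ≠ s := by
    rintro rfl
    obtain ⟨h3', e3⟩ := three_nsmul_origin (c := r * (r - 1)) hb
    obtain ⟨h4', e4⟩ := four_nsmul_origin hb hc
    refine hnd 7 (by norm_num) ?_
    rw [show (7 : ℕ) = 4 + 3 from rfl, add_nsmul, e4, e3]
    exact Point.add_of_Y_eq rfl (by simp [negY]; ring)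
  have hs' : s - 1 ≠ 0 := sub_ne_zero.2 hs
  have hs'' : 1 - s ≠ 0 := sub_ne_zero.2 (Ne.symm hs)
  have hr1' : 1 - r ≠ 0 := fun h => hr1 (by linear_combination -h)
  have hsr : s - r ≠ 0 := sub_ne_zero.2 (Ne.symm hrs)
  have hF := rel13 hb hc hs hrs h13
  set x : K := (1 - r) * (1 - s) / (s - r) with hxdef
  set y : K := (s - r) / (1 - s) with hydef
  have hxy : x * y = 1 - r := by rw [hxdef, hydef]; field_simp
  have hy1 : y + 1 = (1 - r) / (1 - s) := by rw [hydef]; field_simp; ring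
  have hw : 1 + y - x * y = s * (1 - r) / (1 - s) := by
    rw [hxy, hydef]; field_simp; ring
  have hrel : y ^ 2 + (x ^ 3 + x ^ 2 + 1) * y - (x ^ 2 + x) = 0 := by
    have hxs : x * (s - r) = (1 - r) * (1 - s) := div_mul_cancel₀ _ hsr
    have hys : y * (1 - s) = s - r := div_mul_cancel₀ _ hs''
    have e : (1 - s) ^ 2 * (s - r) ^ 3 * (y ^ 2 + (x ^ 3 + x ^ 2 + 1) * y - (x ^ 2 + x))
        = (y * (1 - s)) ^ 2 * (s - r) ^ 3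
          + ((x * (s - r)) ^ 3 + (x * (s - r)) ^ 2 * (s - r) + (s - r) ^ 3) * (y * (1 - s)) * (1 - s)
          - ((x * (s - r)) ^ 2 * (s - r) + (x * (s - r)) * (s - r) ^ 2) * (1 - s) ^ 2 := by ring
    rw [hxs, hys] at e
    apply mul_left_cancel₀ (mul_ne_zero (pow_ne_zero 2 hs'') (pow_ne_zero 3 hsr))
    rw [mul_zero, e]
    linear_combination ((r ^ 2 - r * s - r + s)) * hF
  have hy : y ≠ 0 := div_ne_zero hsr hs''
  have hy1' : y + 1 ≠ 0 := by rw [hy1]; exact div_ne_zero hr1' hs''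
  have hden : (r * s * (r - 1)) ^ 2 - r * s * (r - 1) * (s * (r - 1)) - (s * (r - 1)) ^ 3
      = s ^ 2 * (r - 1) ^ 3 * (r - s) := by ring
  refine ⟨x, y, hrel, div_ne_zero (mul_ne_zero hr1' hs'') hsr, ?_, hy, hy1', ?_, ?_, ?_, ?_,
    ?_, ?_⟩
  · intro hx
    have : y * (y + 1) = 0 := by
      have hx' : x = -1 := eq_neg_of_add_eq_zero_left hx
      rw [hx'] at hrel; linear_combination hrel
    exact (mul_ne_zero hy hy1') this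
  · rw [hw]; exact div_ne_zero (mul_ne_zero hs0 hr1') hs''
  · rw [hxy, sub_sub_cancel]; exact hr
  · rw [hw, hy1, hxy]; field_simp; ring
  · rw [hw, hy1, hxy]; field_simp; ring
  · rw [hden]
    exact mul_ne_zero (mul_ne_zero (pow_ne_zero 2 hs0) (pow_ne_zero 3 hr1)) (sub_ne_zero.2 hrs)
  · rw [xPar13, hden, hxdef]
    have := sub_ne_zero.2 hrs
    field_simp
    ring

set_option maxHeartbeats 2000000 in
omit [DecidableEq K] in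
/-- The `c₄` of the universal curve over `X₁(13)`. -/
lemma c4_identity13 {x y : K} (hrel : y ^ 2 + (x ^ 3 + x ^ 2 + 1) * y - (x ^ 2 + x) = 0) :
    ((((y + 1) + x * y * (1 + y - x * y)) ^ 2
        + 4 * (x * y * (1 - x * y) * (1 + y - x * y) * (y + 1))) ^ 2
      - 24 * (((y + 1) + x * y * (1 + y - x * y))
        * (x * y * (1 - x * y) * (1 + y - x * y) * (y + 1) * (y + 1)))) * (y + 1) ^ 2
    = (x ^ 2 + x + 1) * (x ^ 12 + 9 * x ^ 11 + 29 * x ^ 10 + 40 * x ^ 9 + 22 * x ^ 8 + 16 * x ^ 7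
        + 40 * x ^ 6 + 22 * x ^ 5 - 23 * x ^ 4 - 25 * x ^ 3 - 4 * x ^ 2 + 3 * x + 1)
      * (1 + y - x * y) ^ 2 * (1 - x * y) ^ 4 := by
  linear_combination (norm := ring1) ((0 : K) - 1 * x ^ 17 * y ^ 5 - 7 * x ^ 16 * y ^ 5 + 5 * x ^ 16 * y ^ 4 - 13 * x ^ 15 * y ^ 5
       + 37 * x ^ 15 * y ^ 4 - 10 * x ^ 15 * y ^ 3 + 1 * x ^ 14 * y ^ 6 + 4 * x ^ 14 * y ^ 5
       + 81 * x ^ 14 * y ^ 4 - 78 * x ^ 14 * y ^ 3 + 10 * x ^ 14 * y ^ 2 + 6 * x ^ 13 * y ^ 6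
       + 25 * x ^ 13 * y ^ 5 + 23 * x ^ 13 * y ^ 4 - 195 * x ^ 13 * y ^ 3 + 82 * x ^ 13 * y ^ 2
       - 5 * x ^ 13 * y ^ 1 + 7 * x ^ 12 * y ^ 6 - 16 * x ^ 12 * y ^ 5 - 99 * x ^ 12 * y ^ 4
       - 141 * x ^ 12 * y ^ 3 + 229 * x ^ 12 * y ^ 2 - 43 * x ^ 12 * y ^ 1 + 1 * x ^ 12
       - 1 * x ^ 11 * y ^ 7 - 12 * x ^ 11 * y ^ 6 - 69 * x ^ 11 * y ^ 5 - 25 * x ^ 11 * y ^ 4
       + 94 * x ^ 11 * y ^ 3 + 245 * x ^ 11 * y ^ 2 - 132 * x ^ 11 * y ^ 1 + 9 * x ^ 11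
       - 5 * x ^ 10 * y ^ 7 - 20 * x ^ 10 * y ^ 6 + 16 * x ^ 10 * y ^ 5 + 164 * x ^ 10 * y ^ 4
       + 77 * x ^ 10 * y ^ 3 + 47 * x ^ 10 * y ^ 2 - 179 * x ^ 10 * y ^ 1 + 30 * x ^ 10
       - 2 * x ^ 9 * y ^ 7 + 23 * x ^ 9 * y ^ 6 + 106 * x ^ 9 * y ^ 5 + 23 * x ^ 9 * y ^ 4
       - 182 * x ^ 9 * y ^ 3 - 10 * x ^ 9 * y ^ 2 - 111 * x ^ 9 * y ^ 1 + 48 * x ^ 9
       + 1 * x ^ 8 * y ^ 8 + 15 * x ^ 8 * y ^ 7 + 51 * x ^ 8 * y ^ 6 + 17 * x ^ 8 * y ^ 5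
       - 204 * x ^ 8 * y ^ 4 - 48 * x ^ 8 * y ^ 3 + 156 * x ^ 8 * y ^ 2 - 67 * x ^ 8 * y ^ 1
       + 43 * x ^ 8 + 4 * x ^ 7 * y ^ 8 + 11 * x ^ 7 * y ^ 7 - 34 * x ^ 7 * y ^ 6
       - 162 * x ^ 7 * y ^ 5 - 148 * x ^ 7 * y ^ 4 + 250 * x ^ 7 * y ^ 3 + 58 * x ^ 7 * y ^ 2
       - 119 * x ^ 7 * y ^ 1 + 35 * x ^ 7 - 2 * x ^ 6 * y ^ 8 - 27 * x ^ 6 * y ^ 7
       - 69 * x ^ 6 * y ^ 6 - 2 * x ^ 6 * y ^ 5 + 266 * x ^ 6 * y ^ 4 + 292 * x ^ 6 * y ^ 3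
       - 203 * x ^ 6 * y ^ 2 - 72 * x ^ 6 * y ^ 1 + 43 * x ^ 6 - 12 * x ^ 5 * y ^ 8
       - 36 * x ^ 5 * y ^ 7 - 15 * x ^ 5 * y ^ 6 + 86 * x ^ 5 * y ^ 5 + 82 * x ^ 5 * y ^ 4
       - 256 * x ^ 5 * y ^ 3 - 332 * x ^ 5 * y ^ 2 + 68 * x ^ 5 * y ^ 1 + 35 * x ^ 5
       + 9 * x ^ 4 * y ^ 8 + 57 * x ^ 4 * y ^ 7 + 152 * x ^ 4 * y ^ 6 + 162 * x ^ 4 * y ^ 5
       - 48 * x ^ 4 * y ^ 4 - 198 * x ^ 4 * y ^ 3 + 65 * x ^ 4 * y ^ 2 + 183 * x ^ 4 * y ^ 1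
       + 4 * x ^ 4 - 12 * x ^ 3 * y ^ 7 - 104 * x ^ 3 * y ^ 6 - 296 * x ^ 3 * y ^ 5
       - 342 * x ^ 3 * y ^ 4 - 65 * x ^ 3 * y ^ 3 + 172 * x ^ 3 * y ^ 2 + 60 * x ^ 3 * y ^ 1
       - 30 * x ^ 3 + 30 * x ^ 2 * y ^ 6 + 162 * x ^ 2 * y ^ 5 + 348 * x ^ 2 * y ^ 4
       + 359 * x ^ 2 * y ^ 3 + 141 * x ^ 2 * y ^ 2 - 30 * x ^ 2 * y ^ 1 - 22 * x ^ 2
       - 12 * x ^ 1 * y ^ 5 - 60 * x ^ 1 * y ^ 4 - 120 * x ^ 1 * y ^ 3 - 119 * x ^ 1 * y ^ 2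
       - 52 * x ^ 1 * y ^ 1 - 4 * x ^ 1 + 1 * y ^ 4 + 5 * y ^ 3 + 10 * y ^ 2 + 10 * y ^ 1 + 4) * hrel

set_option maxHeartbeats 2000000 in
omit [DecidableEq K] in
/-- The discriminant of the universal curve over `X₁(13)`, divided by `a₃³`. -/
lemma Δ_identity13 {x y : K} (hrel : y ^ 2 + (x ^ 3 + x ^ 2 + 1) * y - (x ^ 2 + x) = 0)
    {A B : K} (hA : A = (y + 1) + x * y * (1 + y - x * y))
    (hB : B = x * y * (1 - x * y) * (1 + y - x * y) * (y + 1)) :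
    -(A ^ 2 + 4 * B) ^ 2 * (y + 1) ^ 2 - 8 * A ^ 3 * (y + 1) ^ 3 - 27 * B * (y + 1) ^ 4
      + 9 * (A ^ 2 + 4 * B) * A * (y + 1) ^ 3
    = -y ^ 6 * x * (x + 1) ^ 4 * (1 + y - x * y) ^ 3 * (x ^ 3 + 4 * x ^ 2 + x - 1) := by
  subst hA hB
  linear_combination (norm := ring1) ((0 : K) - 1 * x ^ 8 * y ^ 8 - 4 * x ^ 7 * y ^ 8 + 2 * x ^ 7 * y ^ 7 + 2 * x ^ 6 * y ^ 8
       + 11 * x ^ 6 * y ^ 7 - 1 * x ^ 6 * y ^ 6 + 12 * x ^ 5 * y ^ 8 + 10 * x ^ 5 * y ^ 7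
       - 7 * x ^ 5 * y ^ 6 - 9 * x ^ 4 * y ^ 8 - 31 * x ^ 4 * y ^ 7 - 21 * x ^ 4 * y ^ 6
       + 9 * x ^ 3 * y ^ 7 + 18 * x ^ 3 * y ^ 6 + 8 * x ^ 3 * y ^ 5 - 3 * x ^ 2 * y ^ 6
       - 4 * x ^ 2 * y ^ 5 - 1 * x ^ 2 * y ^ 4 - 1 * x ^ 1 * y ^ 7 - 2 * x ^ 1 * y ^ 6
       - 1 * x ^ 1 * y ^ 5) * hrel

omit [DecidableEq K] in
lemma tPar13_sigma {x : K} (hx : x ≠ 0) (hx1 : x + 1 ≠ 0) :
    -((-(x + 1) / x) ^ 3 + 4 * (-(x + 1) / x) ^ 2 + (-(x + 1) / x) - 1)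
        / ((-(x + 1) / x) * (-(x + 1) / x + 1))
      = -(x ^ 3 + 4 * x ^ 2 + x - 1) / (x * (x + 1)) := by
  have e : -(x + 1) / x + 1 = -1 / x := by field_simp; ring
  rw [e]
  field_simp
  ring

omit [DecidableEq K] in
lemma key13_aux {cc dd t m q H C w o X X1 Y Y1 M Q : K} (hm0 : m ≠ 0) (hY1 : Y1 ≠ 0)
    (hu : Y * Y1 = X * X1 * o) (hm : m = X * X1) (E4 : cc * Y1 ^ 6 = q * H * w ^ 2 * o ^ 4)
    (ED : dd * Y1 ^ 12 = (X * Y * o * w * Y1) ^ 3 * (-Y ^ 6 * X * X1 ^ 4 * w ^ 3 * C))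
    (htm : t * m = -C) (hM : M * m ^ 2 = q ^ 3) (hQ : Q * m ^ 4 = H) :
    cc ^ 3 * t = M * Q ^ 3 * dd := by
  apply mul_right_cancel₀ (mul_ne_zero (pow_ne_zero 14 hm0) (pow_ne_zero 18 hY1))
  calc cc ^ 3 * t * (m ^ 14 * Y1 ^ 18) = (cc * Y1 ^ 6) ^ 3 * (t * m) * m ^ 13 := by ring
    _ = -(q ^ 3 * H ^ 3 * C * w ^ 6 * o ^ 3 * (X * X1 * o) ^ 9 * X ^ 4 * X1 ^ 4) := by
      rw [E4, htm, hm]; ring
    _ = q ^ 3 * H ^ 3 * (dd * Y1 ^ 12) * Y1 ^ 6 := by rw [← hu, ED]; ring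
    _ = _ := by rw [← hM, ← hQ]; ring

set_option maxHeartbeats 1000000 in
/-- The equation of `X₀(13)` at a point of order `13`. -/
theorem level13 {W : Affine K} {x y : K} (h : W.Nonsingular x y)
    (hP : 13 • Point.some x y h = 0) :
    W.c₄ ^ 3 * tPar13 (bInv W x y) (cInv W x y)
        = (tPar13 (bInv W x y) (cInv W x y) ^ 2 + 5 * tPar13 (bInv W x y) (cInv W x y) + 13)
          * (tPar13 (bInv W x y) (cInv W x y) ^ 4 + 7 * tPar13 (bInv W x y) (cInv W x y) ^ 3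
            + 20 * tPar13 (bInv W x y) (cInv W x y) ^ 2 + 19 * tPar13 (bInv W x y) (cInv W x y)
            + 1) ^ 3
          * W.Δ ∧
      ∀ x₁ y₁ h₁, 2 • Point.some x y h = Point.some x₁ y₁ h₁ →
        tPar13 (bInv W x₁ y₁) (cInv W x₁ y₁) = tPar13 (bInv W x y) (cInv W x y) := by
  obtain ⟨hb, v, -, h13, hnd, hc4, hΔ, h2⟩ :=
    exists_tnf_two h (p := 13) (by norm_num) (by norm_num) hP
  have hnext : ∀ x₁ y₁ h₁, 2 • Point.some x y h = Point.some x₁ y₁ h₁ →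
      bInv W x₁ y₁ ^ 2 - bInv W x₁ y₁ * cInv W x₁ y₁ - cInv W x₁ y₁ ^ 3 ≠ 0 := by
    intro x₁ y₁ h₁ e
    have hP₁ : 13 • Point.some x₁ y₁ h₁ = 0 := by
      rw [← e, ← mul_nsmul, mul_comm, mul_nsmul, hP, nsmul_zero]
    obtain ⟨hb₁, -, -, h13₁, hnd₁, -, -, -⟩ :=
      exists_tnf_two h₁ (p := 13) (by norm_num) (by norm_num) hP₁
    obtain ⟨-, -, -, -, -, -, -, -, -, -, -, hd, -⟩ := param13 hb₁ h13₁ hnd₁
    exact hd
  obtain ⟨X, Y, hrel, hX, hX1, hY, hY1, hw, ho, eb, ec, -, hxp⟩ := param13 hb h13 hnd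
  generalize bInv W x y = b at *
  generalize cInv W x y = c at *
  have htP : tPar13 b c = -(X ^ 3 + 4 * X ^ 2 + X - 1) / (X * (X + 1)) := by rw [tPar13, hxp]
  have hbne : b ≠ 0 := hb
  have hcne : c ≠ 0 := by
    rw [ec]; exact div_ne_zero (neg_ne_zero.2 (mul_ne_zero (mul_ne_zero hX hY) hw)) hY1
  refine ⟨?_, fun x₁ y₁ h₁ e => ?_⟩
  · set A := (Y + 1) + X * Y * (1 + Y - X * Y) with hA
    set B := X * Y * (1 - X * Y) * (1 + Y - X * Y) * (Y + 1) with hB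
    have hu : Y * (Y + 1) = X * (X + 1) * (1 - X * Y) := by linear_combination hrel
    have e1 : (1 - c) = A / (Y + 1) := by rw [ec, hA]; field_simp; ring
    have e2 : b = -B / (Y + 1) ^ 2 := by rw [eb, hB]; field_simp
    have E4 : (tnf b c).c₄ * (Y + 1) ^ 4 = (A ^ 2 + 4 * B) ^ 2 - 24 * (A * (B * (Y + 1))) := by
      rw [tnf_c₄, e1, e2]; field_simp; ring
    have ED : (tnf b c).Δ * (Y + 1) ^ 12 = B ^ 3 * (-(A ^ 2 + 4 * B) ^ 2 * (Y + 1) ^ 2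
        - 8 * A ^ 3 * (Y + 1) ^ 3 - 27 * B * (Y + 1) ^ 4
        + 9 * (A ^ 2 + 4 * B) * A * (Y + 1) ^ 3) := by
      rw [tnf_Δ, e1, e2]; field_simp; ring
    rw [Δ_identity13 hrel hA hB] at ED
    have E4' : (tnf b c).c₄ * (Y + 1) ^ 6 = (X ^ 2 + X + 1) * (X ^ 12 + 9 * X ^ 11 + 29 * X ^ 10
        + 40 * X ^ 9 + 22 * X ^ 8 + 16 * X ^ 7 + 40 * X ^ 6 + 22 * X ^ 5 - 23 * X ^ 4 - 25 * X ^ 3
        - 4 * X ^ 2 + 3 * X + 1) * (1 + Y - X * Y) ^ 2 * (1 - X * Y) ^ 4 := by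
      rw [← c4_identity13 hrel, show (Y + 1) ^ 6 = (Y + 1) ^ 4 * (Y + 1) ^ 2 by ring, ← mul_assoc,
        E4, hA, hB]
    set q := X ^ 2 + X + 1 with hq
    set H := X ^ 12 + 9 * X ^ 11 + 29 * X ^ 10 + 40 * X ^ 9 + 22 * X ^ 8 + 16 * X ^ 7 + 40 * X ^ 6
        + 22 * X ^ 5 - 23 * X ^ 4 - 25 * X ^ 3 - 4 * X ^ 2 + 3 * X + 1 with hH
    set C := X ^ 3 + 4 * X ^ 2 + X - 1 with hC
    set m := X * (X + 1) with hm
    set t := tPar13 b c with ht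
    have hm0 : m ≠ 0 := mul_ne_zero hX hX1
    have htm : t * m = -C := by rw [htP]; field_simp
    have hM : (t ^ 2 + 5 * t + 13) * m ^ 2 = q ^ 3 := by
      rw [show (t ^ 2 + 5 * t + 13) * m ^ 2 = (t * m) ^ 2 + 5 * (t * m) * m + 13 * m ^ 2 by ring,
        htm, hC, hm, hq]
      ring
    have hQ : (t ^ 4 + 7 * t ^ 3 + 20 * t ^ 2 + 19 * t + 1) * m ^ 4 = H := by
      rw [show (t ^ 4 + 7 * t ^ 3 + 20 * t ^ 2 + 19 * t + 1) * m ^ 4 = (t * m) ^ 4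
        + 7 * (t * m) ^ 3 * m + 20 * (t * m) ^ 2 * m ^ 2 + 19 * (t * m) * m ^ 3 + m ^ 4 by ring,
        htm, hC, hm, hH]
      ring
    have key : (tnf b c).c₄ ^ 3 * t = (t ^ 2 + 5 * t + 13)
        * (t ^ 4 + 7 * t ^ 3 + 20 * t ^ 2 + 19 * t + 1) ^ 3 * (tnf b c).Δ :=
      key13_aux hm0 hY1 hu hm E4' (ED.trans (by rw [hB])) htm hM hQ
    rw [hc4, hΔ]
    linear_combination (v ^ 12) * key
  · obtain ⟨e1, e2⟩ := h2 x₁ y₁ h₁ e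
    have hd1 := hnext x₁ y₁ h₁ e
    have h3 : tA3 (tnf b c) b (b * c) = b * c := by simp [tA3]; ring
    have hl : tLam (tnf b c) b (b * c) = b / c - 1 + c := by
      rw [tLam, h3]; simp; field_simp; ring
    set w := 1 + Y - X * Y with hwdef
    set B := -(1 - X * Y) * X ^ 2 * Y ^ 2 * (Y + 1) with hB
    set N := w ^ 2 - (1 - 2 * X * Y) * (Y + 1) + X * Y * w with hN
    have hr : b / c = 1 - X * Y := by rw [eb, ec]; field_simp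
    have eA2 : tA2 (tnf b c) b (b * c) = (1 - X * Y) * (X * Y) ^ 2 / (Y + 1) := by
      rw [tA2, hl, hr]; simp; rw [eb, ec, hwdef]; field_simp; ring
    have eA3 : b * c = (X * Y) ^ 2 * (1 - X * Y) * w ^ 2 / (Y + 1) ^ 2 := by
      rw [eb, ec, hwdef]; field_simp
    have eA1 : tA1 (tnf b c) b (b * c)
        = ((1 - 2 * X * Y) * (Y + 1) - X * Y * w) / (Y + 1) := by
      rw [tA1, hl, hr]; simp; rw [ec, hwdef]; field_simp; ring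
    have eb' : bInv W x₁ y₁ = B / w ^ 4 := by
      rw [e1, bInv, eA2, h3, eA3, hB]; field_simp
    have ec' : cInv W x₁ y₁ = N / w ^ 2 := by
      rw [e2, cInv, eA1, eA2, h3, eA3, hN]; field_simp; ring
    rw [eb', ec'] at hd1
    have hden : B ^ 2 - B * N * w ^ 2 - N ^ 3 * w ^ 2 ≠ 0 := fun h0 => hd1 (by
      field_simp; linear_combination h0)
    have hnum : X * ((B - N * w ^ 2) * (B - N * w ^ 2 - N ^ 2))
        + (X + 1) * (B ^ 2 - B * N * w ^ 2 - N ^ 3 * w ^ 2) = 0 := by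
      rw [hB, hN, hwdef]
      linear_combination (norm := ring1) ((0 : K) - 1 * X ^ 1 * Y ^ 5 - 3 * X ^ 1 * Y ^ 4 - 3 * X ^ 1 * Y ^ 3 - 1 * X ^ 1 * Y ^ 2
       - 1 * Y ^ 6 - 4 * Y ^ 5 - 6 * Y ^ 4 - 4 * Y ^ 3 - 1 * Y ^ 2) * hrel
    have hx' : xPar13 (bInv W x₁ y₁) (cInv W x₁ y₁) = -(X + 1) / X := by
      rw [xPar13, eb', ec', div_eq_div_iff hd1 hX]
      field_simp
      linear_combination hnum
    rw [tPar13, hx', htP]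
    exact tPar13_sigma hX hX1

end FLTAgent.XSmall
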