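import Fermat.Agent.XSmall.TateNormal
import Fermat.Agent.EllTorsion.Galois
import Fermat.Agent.GalCommon.Basic

/-!
# Rationality of Galois-invariant functions of a point spanning a stable line

`exists_rat_param`: if the mod `p` representation is reducible, `2` and `-1` generate `(ℤ/p)ˣ`
and `T` is invariant under `P ↦ 2P` on Tate parameters, then `T` takes a rational value at some
point of order `p`.
-/

set_option autoImplicit false

noncomputable section

namespace FLTAgent.XSmall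

open WeierstrassCurve WeierstrassCurve.Affine WeierstrassCurve.Affine.Point

local notation "Qbar" => AlgebraicClosure ℚ

variable (W : WeierstrassCurve ℚ)

lemma inv_algEquiv (σ : Qbar ≃ₐ[ℚ] Qbar) (x y : Qbar) :
    bInv (W⁄Qbar).toAffine (σ x) (σ y) = σ (bInv (W⁄Qbar).toAffine x y) ∧
      cInv (W⁄Qbar).toAffine (σ x) (σ y) = σ (cInv (W⁄Qbar).toAffine x y) := by
  constructor <;>
  simp [bInv, cInv, tA1, tA2, tA3, tLam, WeierstrassCurve.toAffine, map_ofNat σ 2, map_ofNat σ 3]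

/-- A function of the Tate parameters, as a function on points. -/
def pointParam {K : Type*} [Field K] {W : Affine K} (T : K → K → K) : W.Point → K
  | 0 => 0
  | .some x y _ => T (bInv W x y) (cInv W x y)

lemma pointParam_neg {K : Type*} [Field K] {W : Affine K} (T : K → K → K) (P : W.Point) :
    pointParam T (-P) = pointParam T P := by
  rcases P with _ | ⟨x, y, h⟩
  · rfl
  · rw [Point.neg_some]
    simp only [pointParam, inv_negY W x y]

/-- If `⟨P⟩` is Galois stable and `T` is invariant under `P ↦ 2P` then `T (P)` is rational. -/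
theorem exists_rat_param [W.IsElliptic] {p : ℕ} (hp : p.Prime) (hp2 : p ≠ 2)
    (hgen : ∀ k : ℕ, k < p → 0 < k → ∃ i : ℕ, (p : ℤ) ∣ 2 ^ i - k ∨ (p : ℤ) ∣ 2 ^ i + k)
    (T : Qbar → Qbar → Qbar)
    (hT : ∀ (σ : Qbar ≃ₐ[ℚ] Qbar) b c, σ (T b c) = T (σ b) (σ c))
    (hdbl : ∀ x y (h : (W⁄Qbar).toAffine.Nonsingular x y), p • Point.some x y h = 0 →
      ∀ x₁ y₁ (h₁ : (W⁄Qbar).toAffine.Nonsingular x₁ y₁),
        2 • Point.some x y h = Point.some x₁ y₁ h₁ →
        T (bInv (W⁄Qbar).toAffine x₁ y₁) (cInv (W⁄Qbar).toAffine x₁ y₁)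
          = T (bInv (W⁄Qbar).toAffine x y) (cInv (W⁄Qbar).toAffine x y))
    (hred : ¬ GaloisRepIsIrreducible (K := Qbar) ℚ W p) :
    ∃ x y, ∃ (h : (W⁄Qbar).toAffine.Nonsingular x y), p • Point.some x y h = 0 ∧
      ∃ t : ℚ, T (bInv (W⁄Qbar).toAffine x y) (cInv (W⁄Qbar).toAffine x y)
        = algebraMap ℚ Qbar t := by
  have : Fact p.Prime := ⟨hp⟩
  obtain ⟨N, hN, hbot, htop⟩ :
      ∃ N : Submodule (ZMod p) (Submodule.torsionBy ℤ (W⁄Qbar).Point p),
        IsGaloisStable ℚ N ∧ N ≠ ⊥ ∧ N ≠ ⊤ := by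
    have hnt : Nontrivial (Submodule.torsionBy ℤ (W⁄Qbar).Point p) :=
      EllTorsion.nontrivial_torsionBy_rat W p hp.two_le
    by_contra hne
    push Not at hne
    exact hred ⟨hnt, fun N hN => or_iff_not_imp_left.2 fun h => hne N hN h⟩
  have := EllTorsion.moduleFinite_torsionBy_rat W p
  have hfr := EllTorsion.finrank_torsionBy_rat W p
  have hN1 : Module.finrank (ZMod p) N = 1 := by
    have h0 : Module.finrank (ZMod p) N ≠ 0 := fun h => hbot (Submodule.finrank_eq_zero.1 h)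
    have h2 := Submodule.finrank_lt htop
    omega
  obtain ⟨v, hv, hv0⟩ := Submodule.exists_mem_ne_zero_of_ne_bot hbot
  have hv' : (⟨v, hv⟩ : N) ≠ 0 := fun e => hv0 (congrArg Subtype.val e)
  have hPne : (v : (W⁄Qbar).Point) ≠ 0 := fun e => hv0 (Subtype.ext e)
  have hPp : p • (v : (W⁄Qbar).Point) = 0 := by
    have := (Submodule.mem_torsionBy_iff _ _).1 v.2
    rwa [natCast_zsmul] at this
  obtain ⟨P, hP⟩ : ∃ P : (W⁄Qbar).Point, P = v := ⟨_, rfl⟩
  rw [← hP] at hPne hPp
  set τ := pointParam (W := (W⁄Qbar).toAffine) T with hτ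
  have hneg := pointParam_neg (W := (W⁄Qbar).toAffine) T
  have hdouble : ∀ Q : (W⁄Qbar).Point, p • Q = 0 → τ (2 • Q) = τ Q := by
    intro Q hQ
    rcases Q with _ | ⟨x, y, h⟩
    · exact congrArg τ (nsmul_zero 2)
    · rcases e : (2 • Point.some x y h : (W⁄Qbar).Point) with _ | ⟨x₁, y₁, h₁⟩
      · exfalso
        obtain ⟨k, hk⟩ := hp.odd_of_ne_two hp2
        rw [hk, succ_nsmul, mul_nsmul, e] at hQ
        simp only [← Point.zero_def, nsmul_zero, zero_add] at hQ
        exact Point.some_ne_zero h hQ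
      · exact hdbl x y h hQ x₁ y₁ h₁ e
  have hpow : ∀ i : ℕ, τ (2 ^ i • P) = τ P := by
    intro i
    induction i with
    | zero => simp
    | succ i ih =>
      rw [pow_succ, mul_nsmul, hdouble _ ?_, ih]
      rw [← mul_nsmul, mul_comm, mul_nsmul, hPp, nsmul_zero]
  have hk : ∀ k : ℕ, k < p → 0 < k → τ (k • P) = τ P := by
    intro k hkp hk0
    obtain ⟨i, hi⟩ := hgen k hkp hk0
    have hPz : (p : ℤ) • P = 0 := by rw [natCast_zsmul]; exact hPp
    rcases hi with ⟨m, hm⟩ | ⟨m, hm⟩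
    · have e : ((2 ^ i : ℕ) : ℤ) • P = (k : ℤ) • P := by
        rw [show ((2 ^ i : ℕ) : ℤ) = k + m * p by push_cast; linear_combination hm, add_zsmul,
          mul_zsmul, hPz, zsmul_zero, add_zero]
      rw [natCast_zsmul, natCast_zsmul] at e
      rw [← e, hpow]
    · have e : ((2 ^ i : ℕ) : ℤ) • P = -((k : ℤ) • P) := by
        rw [show ((2 ^ i : ℕ) : ℤ) = -k + m * p by push_cast; linear_combination hm, add_zsmul,
          mul_zsmul, hPz, zsmul_zero, add_zero, neg_zsmul]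
      rw [natCast_zsmul, natCast_zsmul] at e
      rw [← hpow i, e]
      exact (hneg _).symm
  have hfix : ∀ σ : Qbar ≃ₐ[ℚ] Qbar, τ (σ • P) = τ P := by
    intro σ
    obtain ⟨a, ha⟩ := (finrank_eq_one_iff_of_nonzero' (⟨v, hv⟩ : N) hv').1 hN1 ⟨σ • v, hN σ v hv⟩
    have e : a.val • v = σ • v := by
      rw [← Nat.cast_smul_eq_nsmul (ZMod p), ZMod.natCast_zmod_val]
      exact congrArg Subtype.val ha
    have e' : a.val • P = σ • P := by rw [hP]; exact congrArg Subtype.val e
    rw [← e']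
    refine hk a.val (ZMod.val_lt a) (Nat.pos_of_ne_zero fun h0 => ?_)
    rw [h0] at e'
    exact hPne ((smul_eq_zero_iff_eq σ).1 ((zero_nsmul P).symm.trans e').symm)
  rcases P with _ | ⟨x, y, h⟩
  · exact absurd rfl hPne
  · refine ⟨x, y, h, hPp, ?_⟩
    have := GalCommon.exists_rat_of_fixed
      (x := T (bInv (W⁄Qbar).toAffine x y) (cInv (W⁄Qbar).toAffine x y)) fun σ => by
      rw [hT, ← (inv_algEquiv W σ x y).1, ← (inv_algEquiv W σ x y).2]
      exact hfix σ
    obtain ⟨t, ht⟩ := this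
    exact ⟨t, ht.symm⟩

end FLTAgent.XSmall
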