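import Fermat.Agent.XSmall.Seven
import Fermat.Agent.XSmall.Level13
import Fermat.Agent.XSmall.Orbit
import Fermat.Prelude.Def_FLTPrelim_CofixedLine

/-!
# Irreducibility of the mod `5`, `7`, `13` representations of curves with square discriminant

`irreducible5`, `irreducible13` (`j ≠ 1728`) and `irreducible7` (full rational `2`-torsion). A
reducible representation gives a rational value `t` of the Hauptmodul of `X₀(p)` with `j` equal
to the known rational function of `t`; the square discriminant turns this into a rational point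
ruled out by `XSmall.Descent` and `XSmall.Seven`.
-/

set_option autoImplicit false

noncomputable section

namespace FLTAgent.XSmall

open WeierstrassCurve WeierstrassCurve.Affine WeierstrassCurve.Affine.Point

local notation "Qbar" => AlgebraicClosure ℚ

variable {W : WeierstrassCurve ℚ}

lemma baseChange_c₄ : (W⁄Qbar).toAffine.c₄ = algebraMap ℚ Qbar W.c₄ := map_c₄ _ _

lemma baseChange_Δ : (W⁄Qbar).toAffine.Δ = algebraMap ℚ Qbar W.Δ := map_Δ _ _

lemma param5_of_reducible [W.IsElliptic]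
    (hred : ¬ GaloisRepIsIrreducible (K := Qbar) ℚ W 5) :
    ∃ t : ℚ, W.c₄ ^ 3 * t = (t ^ 2 + 10 * t + 5) ^ 3 * W.Δ := by
  obtain ⟨x, y, h, hP, t, ht⟩ := exists_rat_param W (by norm_num : Nat.Prime 5) (by norm_num)
    (fun k hk hk0 => by
      interval_cases k <;> first
        | (refine ⟨0, ?_⟩; norm_num; done) | (refine ⟨1, ?_⟩; norm_num))
    tPar5 (fun σ b c => by simp [tPar5, map_ofNat σ 11])
    (fun x y h hP => (level5 h hP).2) hred
  refine ⟨t, (algebraMap ℚ Qbar).injective ?_⟩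
  have e := (level5 h hP).1
  rw [ht, baseChange_c₄, baseChange_Δ] at e
  simpa using e

lemma param7_of_reducible [W.IsElliptic]
    (hred : ¬ GaloisRepIsIrreducible (K := Qbar) ℚ W 7) :
    ∃ t : ℚ, W.c₄ ^ 3 * t = (t ^ 2 + 13 * t + 49) * (t ^ 2 + 5 * t + 1) ^ 3 * W.Δ := by
  obtain ⟨x, y, h, hP, t, ht⟩ := exists_rat_param W (by norm_num : Nat.Prime 7) (by norm_num)
    (fun k hk hk0 => by
      interval_cases k <;> first
        | (refine ⟨0, ?_⟩; norm_num; done) | (refine ⟨1, ?_⟩; norm_num; done) | (refine ⟨2, ?_⟩; norm_num))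
    tPar7 (fun σ b c => by simp [tPar7, map_ofNat σ 8, map_ofNat σ 5])
    (fun x y h hP => (level7 h hP).2) hred
  refine ⟨t, (algebraMap ℚ Qbar).injective ?_⟩
  have e := (level7 h hP).1
  rw [ht, baseChange_c₄, baseChange_Δ] at e
  simpa using e

lemma param13_of_reducible [W.IsElliptic]
    (hred : ¬ GaloisRepIsIrreducible (K := Qbar) ℚ W 13) :
    ∃ t : ℚ, W.c₄ ^ 3 * t
      = (t ^ 2 + 5 * t + 13) * (t ^ 4 + 7 * t ^ 3 + 20 * t ^ 2 + 19 * t + 1) ^ 3 * W.Δ := by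
  obtain ⟨x, y, h, hP, t, ht⟩ := exists_rat_param W (by norm_num : Nat.Prime 13) (by norm_num)
    (fun k hk hk0 => by
      interval_cases k <;> first
        | (refine ⟨0, ?_⟩; norm_num; done) | (refine ⟨1, ?_⟩; norm_num; done) | (refine ⟨2, ?_⟩; norm_num; done)
        | (refine ⟨3, ?_⟩; norm_num; done) | (refine ⟨4, ?_⟩; norm_num; done) | (refine ⟨5, ?_⟩; norm_num))
    tPar13 (fun σ b c => by simp [tPar13, xPar13, map_ofNat σ 4])
    (fun x y h hP => (level13 h hP).2) hred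
  refine ⟨t, (algebraMap ℚ Qbar).injective ?_⟩
  have e := (level13 h hP).1
  rw [ht, baseChange_c₄, baseChange_Δ] at e
  simpa using e

/-- A curve with square discriminant and `j ≠ 1728` has irreducible `5`-torsion. -/
theorem irreducible5 [W.IsElliptic] {δ : ℚ} (hδ : W.Δ = δ ^ 2) (hc6 : W.c₆ ≠ 0) :
    GaloisRepIsIrreducible (K := Qbar) ℚ W 5 := by
  by_contra hred
  obtain ⟨t, ht⟩ := param5_of_reducible hred
  have hδ0 : δ ≠ 0 := by
    rintro rfl
    exact W.isUnit_Δ.ne_zero (by rw [hδ]; norm_num)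
  have h6 : W.c₆ ^ 2 * t = (t ^ 2 + 22 * t + 125) * (t ^ 2 + 4 * t - 1) ^ 2 * δ ^ 2 := by
    linear_combination t * W.c_relation + ht + ((t ^ 2 + 10 * t + 5) ^ 3 - 1728 * t) * hδ
  have ht0 : t ≠ 0 := by
    rintro rfl
    simp [hδ0] at h6
  have hf : t ^ 2 + 4 * t - 1 ≠ 0 := by
    intro h0
    rw [h0] at h6
    simp [ht0, hc6] at h6
  refine ht0 (curve20 (t := t) (w := W.c₆ * t / ((t ^ 2 + 4 * t - 1) * δ)) ?_)
  rw [div_pow, eq_div_iff (pow_ne_zero 2 (mul_ne_zero hf hδ0))]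
  linear_combination -t * h6

/-- A curve with square discriminant and `j ≠ 1728` has irreducible `13`-torsion. -/
theorem irreducible13 [W.IsElliptic] {δ : ℚ} (hδ : W.Δ = δ ^ 2) (hc6 : W.c₆ ≠ 0) :
    GaloisRepIsIrreducible (K := Qbar) ℚ W 13 := by
  by_contra hred
  obtain ⟨t, ht⟩ := param13_of_reducible hred
  have hδ0 : δ ≠ 0 := by
    rintro rfl
    exact W.isUnit_Δ.ne_zero (by rw [hδ]; norm_num)
  set f := t ^ 6 + 10 * t ^ 5 + 46 * t ^ 4 + 108 * t ^ 3 + 122 * t ^ 2 + 38 * t - 1 with hfdef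
  have h6 : W.c₆ ^ 2 * t = (t ^ 2 + 6 * t + 13) * f ^ 2 * δ ^ 2 := by
    rw [hfdef]
    linear_combination t * W.c_relation + ht
      + ((t ^ 2 + 5 * t + 13) * (t ^ 4 + 7 * t ^ 3 + 20 * t ^ 2 + 19 * t + 1) ^ 3 - 1728 * t) * hδ
  have ht0 : t ≠ 0 := by
    rintro rfl
    simp [hfdef, hδ0] at h6
  have hf : f ≠ 0 := by
    intro h0
    rw [h0] at h6
    simp [ht0, hc6] at h6
  refine ht0 (curve13 (t := t) (w := W.c₆ * t / (f * δ)) ?_)
  rw [div_pow, eq_div_iff (pow_ne_zero 2 (mul_ne_zero hf hδ0))]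
  linear_combination -t * h6

lemma cubic_form_identity (A B s : ℚ) :
    (A * (s ^ 2 + s + 1) + 2 * s * B) * (2 * s * A - (s ^ 2 - s + 1) * B)
        * ((A * (s ^ 2 + s + 1) + 2 * s * B) - (2 * s * A - (s ^ 2 - s + 1) * B))
      = -((s ^ 2 + 1) ^ 3 - 9 * s ^ 2 * (s ^ 2 + 1)) * (A * B * (A + B))
        + s * ((s ^ 2 + 1) ^ 2 - s ^ 2) * ((A - B) * (2 * A + B) * (A + 2 * B)) := by
  ring

/-- The algebra linking `X₀(7)` with square parameter to the curve `w² = K² + 4R³`. -/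
lemma key7 {A B s : ℚ} (hs : s ≠ 0)
    (ht : (A ^ 2 + A * B + B ^ 2) ^ 3 * s ^ 2
      = ((s ^ 2) ^ 2 + 13 * s ^ 2 + 49) * ((s ^ 2) ^ 2 + 5 * s ^ 2 + 1) ^ 3
        * ((A * B * (A + B)) ^ 2 / 256))
    (hsG : 8 * ((A - B) * (2 * A + B) * (A + 2 * B)) * s
      = -(((s ^ 2) ^ 4 + 14 * (s ^ 2) ^ 3 + 63 * (s ^ 2) ^ 2 + 70 * s ^ 2 - 7)
        * (A * B * (A + B)))) :
    (1 : ℚ) * (A * B * (A + B)) = 0 := by
  set N := s ^ 4 + 5 * s ^ 2 + 1 with hN
  have hN0 : N ≠ 0 := by positivity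
  obtain ⟨P, hP⟩ : ∃ P, P = A * (s ^ 2 + s + 1) + 2 * s * B := ⟨_, rfl⟩
  obtain ⟨Q, hQ⟩ : ∃ Q, Q = 2 * s * A - (s ^ 2 - s + 1) * B := ⟨_, rfl⟩
  have hKK : P * Q * (P - Q) = -((A * B * (A + B)) * N ^ 3) / 8 := by
    rw [hP, hQ, cubic_form_identity, hN]
    linear_combination (((s ^ 2 + 1) ^ 2 - s ^ 2) / 8) * hsG
  have hRR : P ^ 2 - P * Q + Q ^ 2 = (A ^ 2 + A * B + B ^ 2) * N := by
    rw [hP, hQ, hN]; ring
  generalize A * B * (A + B) = K at *
  generalize A ^ 2 + A * B + B ^ 2 = R at *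
  have h0 : P * Q * (P - Q) = 0 := by
    refine seven_main (w := K * N ^ 3 * (s ^ 2 + 7) / (8 * s)) ?_
    rw [hKK, hRR, div_pow, div_pow, mul_pow R N]
    rw [show ((s ^ 2) ^ 2 + 5 * s ^ 2 + 1) = N by rw [hN]; ring] at ht
    rw [eq_div_iff (pow_ne_zero 2 (mul_ne_zero (by norm_num : (8 : ℚ) ≠ 0) hs))]
    linear_combination (256 * N ^ 3) * ht
  rw [hKK] at h0
  simpa [hN0] using h0

/-- A curve `Y² = X(X-A)(X+B)` (up to isomorphism) has irreducible `7`-torsion. -/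
theorem irreducible7 [W.IsElliptic] {A B : ℚ} (hc4 : W.c₄ = A ^ 2 + A * B + B ^ 2)
    (hΔ : W.Δ = (A * B * (A + B)) ^ 2 / 256) (hG : (A - B) * (2 * A + B) * (A + 2 * B) ≠ 0) :
    GaloisRepIsIrreducible (K := Qbar) ℚ W 7 := by
  by_contra hred
  obtain ⟨t, ht⟩ := param7_of_reducible hred
  set K := A * B * (A + B) with hK
  have hK0 : K ≠ 0 := fun h0 => W.isUnit_Δ.ne_zero (by rw [hΔ, h0]; norm_num)
  set G := (A - B) * (2 * A + B) * (A + 2 * B) with hGdef
  set P4 := t ^ 4 + 14 * t ^ 3 + 63 * t ^ 2 + 70 * t - 7 with hP4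
  rw [hc4, hΔ] at ht
  have h6 : 64 * G ^ 2 * t = P4 ^ 2 * K ^ 2 := by
    rw [hP4, hGdef]; rw [hK] at ht ⊢
    linear_combination 256 * ht
  set s := -(P4 * K) / (8 * G) with hs
  have hts : t = s ^ 2 := by
    rw [hs, div_pow, eq_div_iff (by positivity)]
    linear_combination h6
  have hsG : 8 * G * s = -(P4 * K) := by rw [hs]; field_simp
  have hs0 : s ≠ 0 := by
    intro h0
    rw [h0] at hts
    rw [hts] at h6
    rw [hP4, hts] at h6
    simp [hK0] at h6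
  rw [hts] at ht
  rw [hP4, hts] at hsG
  exact mul_ne_zero (by norm_num) hK0 (key7 hs0 ht hsG)

end FLTAgent.XSmall
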