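import Fermat.Agent.XSmall.TateNormal

/-!
# Hauptmoduln of `X₀(5)` and `X₀(7)` at a point of exact order `5`, `7`

`level5`, `level7`: the values of `tPar5`, `tPar7` at the Tate parameters of such a point satisfy
the classical equations between `t` and `j`; `exists_tnf_two` gives the Tate normal form at a
point together with the image of its double, used for invariance under `P ↦ 2P`.
-/

set_option autoImplicit false

namespace FLTAgent.XSmall

open WeierstrassCurve WeierstrassCurve.Affine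

variable {K : Type*} [Field K]

lemma tnf_c₄ (b c : K) :
    (tnf b c).c₄ = ((1 - c) ^ 2 - 4 * b) ^ 2 + 24 * (b * (1 - c)) := by
  simp only [WeierstrassCurve.c₄, b₂, b₄, tnf_a₁, tnf_a₂, tnf_a₃, tnf_a₄]
  ring

lemma tnf_Δ (b c : K) :
    (tnf b c).Δ = -((1 - c) ^ 2 - 4 * b) ^ 2 * (-b ^ 3) + 8 * (b * (1 - c)) ^ 3
      - 27 * b ^ 4 + 9 * ((1 - c) ^ 2 - 4 * b) * (-(b * (1 - c))) * b ^ 2 := by
  simp only [WeierstrassCurve.Δ, b₂, b₄, b₆, b₈, tnf_a₁, tnf_a₂, tnf_a₃, tnf_a₄, tnf_a₆]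
  ring

/-- Hauptmodul of `X₀(5)` in terms of the Tate parameters. -/
def tPar5 (_b c : K) : K := (c ^ 2 - 11 * c - 1) / c

/-- Hauptmodul of `X₀(7)` in terms of the Tate parameters. -/
def tPar7 (b c : K) : K :=
  ((b / c) ^ 3 - 8 * (b / c) ^ 2 + 5 * (b / c) + 1) / ((b / c) * (b / c - 1))

variable [DecidableEq K]

lemma nsmul_ne_zero_of_prime {G : Type*} [AddMonoid G] {P : G} {p k : ℕ} (hp : p.Prime)
    (hP : P ≠ 0) (h : p • P = 0) (hk : ¬ p ∣ k) : k • P ≠ 0 := by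
  intro h0
  have : Fact p.Prime := ⟨hp⟩
  have ho := addOrderOf_eq_prime h hP
  exact hk (ho ▸ addOrderOf_dvd_of_nsmul_eq_zero h0)

lemma c_ne_zero_of {b c : K} (hb : b ≠ 0) (h4 : 4 • origin (c := c) hb ≠ 0) : c ≠ 0 := by
  rintro rfl
  obtain ⟨h', e⟩ := three_nsmul_origin (c := (0 : K)) hb
  apply h4
  rw [succ_nsmul, e]
  exact Point.add_of_Y_eq rfl (by simp [negY])

lemma b_ne_c_of {b c : K} (hb : b ≠ 0) (h5 : 5 • origin (c := c) hb ≠ 0) : b ≠ c := by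
  rintro rfl
  obtain ⟨h2, e2⟩ := two_nsmul_origin (c := b) hb
  obtain ⟨h3, e3⟩ := three_nsmul_origin (c := b) hb
  apply h5
  rw [show (5 : ℕ) = 2 + 3 from rfl, add_nsmul, e2, e3]
  exact Point.add_of_Y_eq rfl (by simp [negY]; ring)

/-- The data of a Tate normal form at `P` together with the image of `2P`. -/
theorem exists_tnf_two {W : Affine K} {x y : K} (h : W.Nonsingular x y) {p : ℕ} (hp : p.Prime)
    (hp5 : 5 ≤ p) (hP : p • Point.some x y h = 0) :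
    ∃ (hb : bInv W x y ≠ 0) (u : K), u ≠ 0 ∧
      p • origin (c := cInv W x y) hb = 0 ∧
      (∀ k, ¬ p ∣ k → k • origin (c := cInv W x y) hb ≠ 0) ∧
      W.c₄ = u ^ 4 * (tnf (bInv W x y) (cInv W x y)).c₄ ∧
      W.Δ = u ^ 12 * (tnf (bInv W x y) (cInv W x y)).Δ ∧
      ∀ x₁ y₁ h₁, 2 • Point.some x y h = Point.some x₁ y₁ h₁ →
        bInv W x₁ y₁ = bInv (tnf (bInv W x y) (cInv W x y)) (bInv W x y) (bInv W x y * cInv W x y) ∧
        cInv W x₁ y₁ = cInv (tnf (bInv W x y) (cInv W x y)) (bInv W x y) (bInv W x y * cInv W x y) := by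
  have nd : ∀ k, ¬ p ∣ k → k • Point.some x y h ≠ 0 := fun k hk =>
    nsmul_ne_zero_of_prime hp (Point.some_ne_zero h) hP hk
  have hlt : ∀ k, 0 < k → k < 5 → ¬ p ∣ k := fun k h1 h2 hk => by
    have := Nat.le_of_dvd h1 hk; omega
  obtain ⟨hb, u, φ, hu, hφ, hφ0, hc4, hΔ, hinv⟩ :=
    exists_tnf h (nd 2 (hlt 2 (by norm_num) (by norm_num))) (nd 3 (hlt 3 (by norm_num) (by norm_num)))
  refine ⟨hb, u, hu, by rw [← hφ0, ← map_nsmul, hP, map_zero],
    fun k hk => by rw [← hφ0, ← map_nsmul]; exact (map_ne_zero_iff φ hφ).2 (nd k hk), hc4, hΔ, ?_⟩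
  intro x₁ y₁ h₁ e
  have hne : tA3 W x₁ y₁ ≠ 0 := fun h0 => by
    refine nd 4 (hlt 4 (by norm_num) (by norm_num)) ?_
    rw [show (4 : ℕ) = 2 * 2 from rfl, mul_nsmul, e, two_nsmul_eq_zero h₁ h0]
  obtain ⟨x₂, y₂, h₂, e₂, i1, i2⟩ := hinv x₁ y₁ h₁ hne
  obtain ⟨h', e'⟩ := two_nsmul_origin (c := cInv W x y) hb
  have := congrArg φ e
  rw [map_nsmul, hφ0, e', e₂] at this
  obtain ⟨rfl, rfl⟩ : _ ∧ _ := (Point.some.injEq ..).mp this
  exact ⟨i1.symm, i2.symm⟩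

/-- The equation of `X₀(5)` at a point of order `5`. -/
theorem level5 {W : Affine K} {x y : K} (h : W.Nonsingular x y)
    (hP : 5 • Point.some x y h = 0) :
    W.c₄ ^ 3 * tPar5 (bInv W x y) (cInv W x y)
        = (tPar5 (bInv W x y) (cInv W x y) ^ 2 + 10 * tPar5 (bInv W x y) (cInv W x y) + 5) ^ 3
          * W.Δ ∧
      ∀ x₁ y₁ h₁, 2 • Point.some x y h = Point.some x₁ y₁ h₁ →
        tPar5 (bInv W x₁ y₁) (cInv W x₁ y₁) = tPar5 (bInv W x y) (cInv W x y) := by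
  obtain ⟨hb, u, -, h5, -, hc4, hΔ, h2⟩ := exists_tnf_two h (p := 5) (by norm_num) le_rfl hP
  generalize bInv W x y = b at hb h5 hc4 hΔ h2 ⊢
  generalize cInv W x y = c at hb h5 hc4 hΔ h2 ⊢
  obtain rfl : c = b := by
    obtain ⟨h2', e2⟩ := two_nsmul_origin (c := c) hb
    obtain ⟨h3', e3⟩ := three_nsmul_origin (c := c) hb
    rw [show (5 : ℕ) = 3 + 2 from rfl, add_nsmul, e3, e2] at h5
    exact (neg_some_eq (eq_neg_of_add_eq_zero_left h5)).1
  refine ⟨?_, fun x₁ y₁ h₁ e => ?_⟩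
  · rw [hc4, hΔ, tnf_c₄, tnf_Δ, tPar5]
    field_simp
    ring
  · obtain ⟨e1, e2⟩ := h2 x₁ y₁ h₁ e
    have h3 : tA3 (tnf c c) c (c * c) = c ^ 2 := by simp [tA3]; ring
    have hl : tLam (tnf c c) c (c * c) = c := by
      rw [tLam, h3]; simp; field_simp; ring
    have ec : cInv W x₁ y₁ = -1 / c := by
      rw [e2, cInv, tA1, tA2, hl, h3]; simp; field_simp; ring
    rw [ec, tPar5, tPar5]
    field_simp
    ring

/-- The equation of `X₀(7)` at a point of order `7`. -/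
theorem level7 {W : Affine K} {x y : K} (h : W.Nonsingular x y)
    (hP : 7 • Point.some x y h = 0) :
    W.c₄ ^ 3 * tPar7 (bInv W x y) (cInv W x y)
        = (tPar7 (bInv W x y) (cInv W x y) ^ 2 + 13 * tPar7 (bInv W x y) (cInv W x y) + 49)
          * (tPar7 (bInv W x y) (cInv W x y) ^ 2 + 5 * tPar7 (bInv W x y) (cInv W x y) + 1) ^ 3
          * W.Δ ∧
      ∀ x₁ y₁ h₁, 2 • Point.some x y h = Point.some x₁ y₁ h₁ →
        tPar7 (bInv W x₁ y₁) (cInv W x₁ y₁) = tPar7 (bInv W x y) (cInv W x y) := by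
  obtain ⟨hb, u, -, h7, hnd, hc4, hΔ, h2⟩ := exists_tnf_two h (p := 7) (by norm_num) (by norm_num) hP
  generalize bInv W x y = b at hb h7 hnd hc4 hΔ h2 ⊢
  generalize cInv W x y = c at hb h7 hnd hc4 hΔ h2 ⊢
  have hc : c ≠ 0 := c_ne_zero_of hb (hnd 4 (by norm_num))
  have hbc : b - c ≠ 0 := sub_ne_zero.2 (b_ne_c_of hb (hnd 5 (by norm_num)))
  obtain ⟨r, s, rfl, rfl⟩ : ∃ r s : K, b = r * s * (r - 1) ∧ c = s * (r - 1) :=
    ⟨b / c, c ^ 2 / (b - c), by field_simp, by field_simp⟩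
  obtain ⟨h3', e3⟩ := three_nsmul_origin (c := s * (r - 1)) hb
  obtain ⟨h4', e4⟩ := four_nsmul_origin hb hc
  rw [show (7 : ℕ) = 4 + 3 from rfl, add_nsmul, e4, e3] at h7
  have hr1 : r - 1 ≠ 0 := fun h0 => hc (by rw [h0, mul_zero])
  obtain rfl : r = s := mul_right_cancel₀ hr1 (neg_some_eq (eq_neg_of_add_eq_zero_left h7)).1
  have hr : r ≠ 0 := fun h0 => hc (by rw [h0, zero_mul])
  have hd : r * r * (r - 1) / (r * (r - 1)) = r := by field_simp
  refine ⟨?_, fun x₁ y₁ h₁ e => ?_⟩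
  · rw [hc4, hΔ, tnf_c₄, tnf_Δ, tPar7, hd]
    field_simp
    ring
  · obtain ⟨e1, e2⟩ := h2 x₁ y₁ h₁ e
    have h3 : tA3 (tnf (r * r * (r - 1)) (r * (r - 1))) (r * r * (r - 1))
        (r * r * (r - 1) * (r * (r - 1))) = r * r * (r - 1) * (r * (r - 1)) := by
      simp [tA3]; ring
    have hl : tLam (tnf (r * r * (r - 1)) (r * (r - 1))) (r * r * (r - 1))
        (r * r * (r - 1) * (r * (r - 1))) = r ^ 2 - 1 := by
      rw [tLam, h3]; simp; field_simp; ring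
    have eb : bInv W x₁ y₁ = -(r - 1) ^ 2 / r ^ 3 := by
      rw [e1, bInv, tA2, hl, h3]; simp; field_simp; ring
    have ec : cInv W x₁ y₁ = (1 - r) / r ^ 2 := by
      rw [e2, cInv, tA1, tA2, hl, h3]; simp; field_simp; ring
    have hd1 : bInv W x₁ y₁ / cInv W x₁ y₁ = (r - 1) / r := by
      rw [eb, ec]
      have : (1 : K) - r ≠ 0 := fun h0 => hr1 (by linear_combination -h0)
      field_simp; ring
    rw [tPar7, tPar7, hd1, hd]
    field_simp
    ring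

end FLTAgent.XSmall
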