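import Fermat.Agent.XSmall.Descent

/-!
# The descent behind `X₀(28)`

For rationals `P`, `Q`, with `R = P² - PQ + Q²` and `K = PQ(P-Q)`, the number `K² + 4R³` is a
square only if `K = 0` (`seven_main`). It reduces to `seven_conics`: if `a² + b²` and
`a² - 7b²` are both squares with `a`, `b` coprime then `b = 0`.
-/

set_option autoImplicit false

namespace FLTAgent.XSmall

lemma exists_four_factor {x y g h : ℤ} (hx : x ≠ 0) (e : x * y = g * h) :
    ∃ a b c d : ℤ, x = a * b ∧ y = c * d ∧ g = a * c ∧ h = b * d := by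
  obtain ⟨a, b, ⟨c, hc⟩, ⟨d, hd⟩, hab⟩ := exists_dvd_and_dvd_of_dvd_mul (Dvd.intro y e : x ∣ g * h)
  refine ⟨a, b, c, d, hab, ?_, hc, hd⟩
  apply mul_left_cancel₀ hx
  rw [e, hc, hd, hab]; ring

/-- Splitting `U * V = p * f²`. -/
lemma split_square {p U V f : ℤ} (hp : Prime p) (hp0 : 0 < p) (hU : 0 ≤ U) (hV : 0 ≤ V)
    (hco : IsCoprime U V) (h : U * V = p * f ^ 2) :
    ∃ g k : ℤ, g ^ 2 * k ^ 2 = f ^ 2 ∧ U + V = p * g ^ 2 + k ^ 2 := by
  have key : ∀ U V : ℤ, 0 ≤ U → 0 ≤ V → IsCoprime U V → U * V = p * f ^ 2 → p ∣ U →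
      ∃ g k : ℤ, g ^ 2 * k ^ 2 = f ^ 2 ∧ U + V = p * g ^ 2 + k ^ 2 := by
    rintro U V hU hV hco h ⟨W, rfl⟩
    have hW : 0 ≤ W := nonneg_of_mul_nonneg_right hU hp0
    have h' : W * V = f ^ 2 := by
      apply mul_left_cancel₀ hp0.ne'
      linear_combination h
    have hc : IsCoprime W V := hco.of_mul_left_right
    obtain ⟨g, rfl⟩ := sq_of_coprime_mul_eq_sq hW hc h'
    obtain ⟨k, rfl⟩ := sq_of_coprime_mul_eq_sq hV hc.symm (by rw [mul_comm]; exact h')
    exact ⟨g, k, h', rfl⟩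
  rcases hp.dvd_or_dvd (show p ∣ U * V from h ▸ dvd_mul_right p _) with hd | hd
  · exact key U V hU hV hco h hd
  · obtain ⟨g, k, h1, h2⟩ := key V U hV hU hco.symm (by linarith) hd
    exact ⟨g, k, h1, by linarith⟩

/-- One step of the descent. -/
lemma conics_step {a b c e : ℤ} (hb : b ≠ 0) (hc : c ≠ 0) (he : e ≠ 0)
    (hae : IsCoprime a e) (hbc : IsCoprime b c)
    (h : a ^ 2 * (b ^ 2 - 7 * c ^ 2) = e ^ 2 * (b ^ 2 + c ^ 2)) :
    b ^ 2 + c ^ 2 = a ^ 2 ∧ b ^ 2 - 7 * c ^ 2 = e ^ 2 := by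
  obtain ⟨k, hk⟩ : e ^ 2 ∣ b ^ 2 - 7 * c ^ 2 :=
    hae.symm.pow.dvd_of_dvd_mul_left ⟨_, h⟩
  have hk2 : b ^ 2 + c ^ 2 = k * a ^ 2 := by
    apply mul_left_cancel₀ (pow_ne_zero 2 he)
    rw [← h, hk]; ring
  have hkpos : 0 < k := by
    by_contra hneg
    have h1 : k * a ^ 2 ≤ 0 := mul_nonpos_of_nonpos_of_nonneg (not_lt.1 hneg) (sq_nonneg a)
    have h2 : 0 < b ^ 2 := by positivity
    have h3 : 0 < c ^ 2 := by positivity
    omega
  obtain ⟨u, v, huv⟩ := (hbc.pow (m := 2) (n := 2))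
  have hk8 : k ∣ 8 := ⟨u * (7 * a ^ 2 + e ^ 2) + v * (a ^ 2 - e ^ 2), by
    linear_combination (-8) * huv + (u - v) * hk + (7 * u + v) * hk2⟩
  have hk_le : k ≤ 8 := Int.le_of_dvd (by norm_num) hk8
  suffices hk1 : k = 1 by
    subst hk1; exact ⟨by linarith, by linarith⟩
  rcases Int.even_or_odd b with hb2 | hb2 <;> rcases Int.even_or_odd c with hc2 | hc2
  · exact absurd (false_of_prime_dvd hbc Int.prime_two (even_iff_two_dvd.1 hb2)
      (even_iff_two_dvd.1 hc2)) id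
  · obtain ⟨i, hi⟩ := even_sq_eq hb2
    obtain ⟨j, hj⟩ := odd_sq_eq hc2
    have hodd : Odd (k * a ^ 2) := ⟨2 * i + 4 * j, by omega⟩
    have hkodd := (Int.odd_mul.1 hodd).1
    interval_cases k <;> first | rfl | omega
  · obtain ⟨i, hi⟩ := odd_sq_eq hb2
    obtain ⟨j, hj⟩ := even_sq_eq hc2
    have hodd : Odd (k * a ^ 2) := ⟨4 * i + 2 * j, by omega⟩
    have hkodd := (Int.odd_mul.1 hodd).1
    interval_cases k <;> first | rfl | omega
  · exfalso
    obtain ⟨i, hi⟩ := odd_sq_eq hb2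
    obtain ⟨j, hj⟩ := odd_sq_eq hc2
    rw [hi, hj] at hk hk2
    rcases Int.even_or_odd a with ha2 | ha2 <;> rcases Int.even_or_odd e with he2 | he2
    · obtain ⟨l, hl⟩ := even_sq_eq ha2
      obtain ⟨r, hr⟩ := even_sq_eq he2
      rw [hl] at hk2
      rw [hr] at hk
      interval_cases k <;> omega
    · obtain ⟨l, hl⟩ := even_sq_eq ha2
      obtain ⟨r, hr⟩ := odd_sq_eq he2
      rw [hl] at hk2
      rw [hr] at hk
      interval_cases k <;> omega
    · obtain ⟨l, hl⟩ := odd_sq_eq ha2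
      obtain ⟨r, hr⟩ := even_sq_eq he2
      rw [hl] at hk2
      rw [hr] at hk
      interval_cases k <;> omega
    · obtain ⟨l, hl⟩ := odd_sq_eq ha2
      obtain ⟨r, hr⟩ := odd_sq_eq he2
      rw [hl] at hk2
      rw [hr] at hk
      interval_cases k <;> omega

lemma not_both_odd_sum_sq {a b c : ℤ} (ha : Odd a) (hb : Odd b) : a ^ 2 + b ^ 2 ≠ c ^ 2 := by
  intro h
  obtain ⟨i, hi⟩ := odd_sq_eq ha
  obtain ⟨j, hj⟩ := odd_sq_eq hb
  rcases Int.even_or_odd c with hc | hc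
  · obtain ⟨l, hl⟩ := even_sq_eq hc; omega
  · obtain ⟨l, hl⟩ := odd_sq_eq hc; omega

/-- Infinite descent: `a² + b²` and `a² - 7b²` are not both squares unless `b = 0`. -/
theorem seven_conics {a b c d : ℤ} (hco : IsCoprime a b) (h1 : a ^ 2 + b ^ 2 = c ^ 2)
    (h2 : a ^ 2 - 7 * b ^ 2 = d ^ 2) : b = 0 := by
  induction hn : b.natAbs using Nat.strong_induction_on generalizing a b c d with
  | _ N ih =>
  by_contra hb
  wlog ha : 0 ≤ a generalizing a
  · exact this (a := -a) hco.neg_left (by rw [neg_sq]; exact h1) (by rw [neg_sq]; exact h2)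
      (by omega)
  have hb2 : 0 < b ^ 2 := by positivity
  have hda : d ^ 2 < a ^ 2 := by linarith
  have hd1 : 0 < a - d ∧ 0 < a + d := by
    have := abs_lt_of_sq_lt_sq hda ha
    rw [abs_lt] at this; omega
  have hc0 : 0 < |c| := by
    rw [abs_pos]; rintro rfl
    have := sq_nonneg a
    omega
  have habs : ∀ x : ℤ, |x| * |x| = x ^ 2 := fun x => by rw [abs_mul_abs_self, sq]
  rcases Int.even_or_odd a with hae | hao <;> rcases Int.even_or_odd b with hbe | hbo
  · exact false_of_prime_dvd hco Int.prime_two (even_iff_two_dvd.1 hae) (even_iff_two_dvd.1 hbe)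
  · -- `a` even, `b` odd
    have hdo : Odd d := by
      refine Int.not_even_iff_odd.1 fun hde => ?_
      obtain ⟨i, hi⟩ := even_sq_eq hae
      obtain ⟨j, hj⟩ := odd_sq_eq hbo
      obtain ⟨l, hl⟩ := even_sq_eq hde
      omega
    have hpy : PythagoreanTriple b a |c| := by
      show b * b + a * a = |c| * |c|
      rw [habs, ← h1]; ring
    obtain ⟨m, n, hbmn, hamn, -, hmn, hpar, -⟩ :=
      hpy.coprime_classification' (Int.isCoprime_iff_gcd_eq_one.1 hco.symm) (Int.odd_iff.1 hbo) hc0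
    have hcoUV : IsCoprime (a - d) (a + d) := by
      refine isCoprime_of_forall_prime fun l hl u v => ?_
      have hl2 : l * l ∣ 7 * b ^ 2 := by
        have : (a - d) * (a + d) = 7 * b ^ 2 := by linear_combination h2
        exact this ▸ mul_dvd_mul u v
      have hla : l ∣ a := by
        rcases hl.dvd_or_dvd (show l ∣ 2 * a by
          have := dvd_add u v; rwa [show a - d + (a + d) = 2 * a by ring] at this) with h | h
        · exfalso
          have hodd : Odd (a - d) := Even.sub_odd hae hdo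
          exact (Int.not_even_iff_odd.2 hodd) (even_iff_two_dvd.2
            ((hl.associated_of_dvd Int.prime_two h).symm.dvd.trans u))
        · exact h
      have hlb : ¬ l ∣ b := fun h => false_of_prime_dvd hco hl hla h
      have hcb : IsCoprime (l * l) (b ^ 2) := by
        have := (hl.coprime_iff_not_dvd).2 hlb
        exact (this.mul_left this).pow_right
      have h7 : l * l ∣ 7 := hcb.dvd_of_dvd_mul_right hl2
      have hsq : Squarefree (7 : ℤ) := by
        have : Prime (7 : ℤ) := by norm_num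
        exact this.squarefree
      exact hl.not_isUnit (hsq l h7)
    obtain ⟨g, k, hgk, hsum⟩ := split_square (p := 7) (by norm_num) (by norm_num) hd1.1.le hd1.2.le
      hcoUV (f := b) (by linear_combination h2)
    have hb' : b = (m + n) * (m - n) := by rw [hbmn]; ring
    have hgk' : (g * k) ^ 2 = ((m + n) * (m - n)) ^ 2 := by rw [mul_pow, hgk, hb']
    obtain ⟨g', hg', hgk''⟩ : ∃ g', g' ^ 2 = g ^ 2 ∧ (m + n) * (m - n) = g' * k := by
      rcases sq_eq_sq_iff_eq_or_eq_neg.1 hgk' with h | h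
      · exact ⟨g, rfl, h.symm⟩
      · exact ⟨-g, neg_sq g, by linarith⟩
    rw [← hb'] at hgk''
    obtain ⟨a', b', c', e', hx, hy, hg, hk⟩ :=
      exists_four_factor (x := m + n) (y := m - n) (g := g') (h := k)
        (by intro h0; rw [h0, zero_mul] at hb'; exact hb hb') (by rw [← hgk'', hb'])
    have hxo : Odd (m + n) ∧ Odd (m - n) := Int.odd_mul.1 (hb' ▸ hbo)
    rw [hx, hy] at hxo
    obtain ⟨⟨ha'o, hb'o⟩, ⟨hc'o, he'o⟩⟩ := And.imp Int.odd_mul.1 Int.odd_mul.1 hxo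
    have hxy : IsCoprime (a' * b') (c' * e') := by
      rw [← hx, ← hy]
      refine isCoprime_of_forall_prime fun l hl u v => ?_
      have hcmn : IsCoprime m n := Int.isCoprime_iff_gcd_eq_one.2 hmn
      have hodd : Odd (m + n) := by rw [hx]; exact ha'o.mul hb'o
      have h2m : l ∣ 2 * m := by
        have := dvd_add u v; rwa [show m + n + (m - n) = 2 * m by ring] at this
      rcases hl.dvd_or_dvd h2m with h | h
      · exact (Int.not_even_iff_odd.2 hodd) (even_iff_two_dvd.2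
          ((hl.associated_of_dvd Int.prime_two h).symm.dvd.trans u))
      · exact false_of_prime_dvd hcmn hl h (by simpa using dvd_sub u h)
    have hne : ∀ {x : ℤ}, Odd x → x ≠ 0 := by rintro x hx rfl; simp at hx
    have key : a' ^ 2 * (b' ^ 2 - 7 * c' ^ 2) = e' ^ 2 * (b' ^ 2 + c' ^ 2) := by
      have e1 : (a' * b') ^ 2 - (c' * e') ^ 2 = 7 * g' ^ 2 + k ^ 2 := by
        rw [hg', ← hsum, ← hx, ← hy, hamn]; ring
      rw [hg, hk] at e1
      linear_combination e1
    exact not_both_odd_sum_sq hb'o hc'o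
      (conics_step (hne hb'o) (hne hc'o) (hne he'o) hxy.of_mul_left_left.of_mul_right_right
        hxy.of_mul_left_right.of_mul_right_left key).1
  · -- `a` odd, `b` even: the descent
    have hdo : Odd d := by
      refine Int.not_even_iff_odd.1 fun hde => ?_
      obtain ⟨i, hi⟩ := odd_sq_eq hao
      obtain ⟨j, hj⟩ := even_sq_eq hbe
      obtain ⟨l, hl⟩ := even_sq_eq hde
      omega
    have hpy : PythagoreanTriple a b |c| := by
      show a * a + b * b = |c| * |c|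
      rw [habs, ← h1]; ring
    obtain ⟨m, n, hamn, hbmn, -, hmn, -, -⟩ :=
      hpy.coprime_classification' (Int.isCoprime_iff_gcd_eq_one.1 hco) (Int.odd_iff.1 hao) hc0
    have hcmn : IsCoprime m n := Int.isCoprime_iff_gcd_eq_one.2 hmn
    obtain ⟨U, hU⟩ : (2 : ℤ) ∣ a - d := even_iff_two_dvd.1 (hao.sub_odd hdo)
    obtain ⟨V, hV⟩ : (2 : ℤ) ∣ a + d := even_iff_two_dvd.1 (hao.add_odd hdo)
    have hUV : U * V = 7 * (m * n) ^ 2 := by
      apply mul_left_cancel₀ (four_ne_zero : (4 : ℤ) ≠ 0)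
      have : (a - d) * (a + d) = 7 * b ^ 2 := by linear_combination h2
      rw [hU, hV, hbmn] at this
      linear_combination this
    have hcoUV : IsCoprime U V := by
      refine isCoprime_of_forall_prime fun l hl u v => ?_
      have hla : l ∣ a := by
        have := dvd_add u v
        rwa [show U + V = a by linarith] at this
      have hl2 : l * l ∣ 7 * (m * n) ^ 2 := hUV ▸ mul_dvd_mul u v
      have hlb : ¬ l ∣ m * n := fun h =>
        false_of_prime_dvd hco hl hla (by rw [hbmn, mul_assoc]; exact h.mul_left 2)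
      have hcb : IsCoprime (l * l) ((m * n) ^ 2) := by
        have := (hl.coprime_iff_not_dvd).2 hlb
        exact (this.mul_left this).pow_right
      have hsq : Squarefree (7 : ℤ) := by
        have : Prime (7 : ℤ) := by norm_num
        exact this.squarefree
      exact hl.not_isUnit (hsq l (hcb.dvd_of_dvd_mul_right hl2))
    obtain ⟨g, k, hgk, hsum⟩ := split_square (p := 7) (by norm_num) (by norm_num)
      (by omega) (by omega) hcoUV hUV
    have hm0 : m ≠ 0 := by rintro rfl; simp at hbmn; exact hb hbmn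
    have hn0 : n ≠ 0 := by rintro rfl; simp at hbmn; exact hb hbmn
    obtain ⟨g', hg', hgk'⟩ : ∃ g', g' ^ 2 = g ^ 2 ∧ m * n = g' * k := by
      rcases sq_eq_sq_iff_eq_or_eq_neg.1 (show (g * k) ^ 2 = (m * n) ^ 2 by rw [mul_pow, hgk]) with h | h
      · exact ⟨g, rfl, h.symm⟩
      · exact ⟨-g, neg_sq g, by linarith⟩
    obtain ⟨a', b', c', e', hx, hy, hg, hk⟩ :=
      exists_four_factor (x := m) (y := n) (g := g') (h := k) hm0 hgk'
    rw [hx] at hm0
    rw [hy] at hn0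
    rw [hx, hy] at hcmn
    have key : a' ^ 2 * (b' ^ 2 - 7 * c' ^ 2) = e' ^ 2 * (b' ^ 2 + c' ^ 2) := by
      have e1 : (a' * b') ^ 2 - (c' * e') ^ 2 = 7 * g' ^ 2 + k ^ 2 := by
        rw [hg', ← hsum, ← hx, ← hy, ← hamn]; linarith
      rw [hg, hk] at e1
      linear_combination e1
    have hc' : c' ≠ 0 := (mul_ne_zero_iff.1 hn0).1
    obtain ⟨q1, q2⟩ := conics_step (mul_ne_zero_iff.1 hm0).2 hc'
      (mul_ne_zero_iff.1 hn0).2 hcmn.of_mul_left_left.of_mul_right_right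
      hcmn.of_mul_left_right.of_mul_right_left key
    have hlt : c'.natAbs < N := by
      rw [← hn, hbmn, hx, hy, Int.natAbs_mul, Int.natAbs_mul, Int.natAbs_mul, Int.natAbs_mul]
      have h1 : 1 ≤ c'.natAbs := Int.natAbs_pos.2 hc'
      have h2 : 1 ≤ e'.natAbs := Int.natAbs_pos.2 (mul_ne_zero_iff.1 hn0).2
      have h3 : 1 ≤ a'.natAbs * b'.natAbs :=
        Nat.one_le_iff_ne_zero.2 (Nat.mul_ne_zero
          (Int.natAbs_ne_zero.2 (mul_ne_zero_iff.1 hm0).1)
          (Int.natAbs_ne_zero.2 (mul_ne_zero_iff.1 hm0).2))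
      have h4 : c'.natAbs * 1 ≤ c'.natAbs * e'.natAbs := Nat.mul_le_mul_left _ h2
      have h5 : 1 * (c'.natAbs * e'.natAbs) ≤ (a'.natAbs * b'.natAbs) * (c'.natAbs * e'.natAbs) :=
        Nat.mul_le_mul_right _ h3
      have h6 : Int.natAbs 2 = 2 := rfl
      rw [h6, mul_assoc]
      omega
    exact hc' (ih _ hlt hcmn.of_mul_left_right.of_mul_right_left q1 q2 rfl)
  · exact not_both_odd_sum_sq hao hbo h1

/-- The main case of the descent, `P`, `Q` odd. -/
lemma seven_main_odd {P Q w : ℤ} (hco : IsCoprime P Q) (hP : Odd P) (hQ : Odd Q)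
    (heq : (P * Q * (P - Q)) ^ 2 + 4 * (P ^ 2 - P * Q + Q ^ 2) ^ 3 = w ^ 2) :
    P * Q * (P - Q) = 0 := by
  obtain ⟨S, hS⟩ : (2 : ℤ) ∣ P + Q := even_iff_two_dvd.1 (hP.add_odd hQ)
  obtain ⟨D, hD⟩ : (2 : ℤ) ∣ P - Q := even_iff_two_dvd.1 (hP.sub_odd hQ)
  obtain rfl : P = S + D := by omega
  obtain rfl : Q = S - D := by omega
  by_contra hK
  have hcSD : IsCoprime S D := by
    refine isCoprime_of_forall_prime fun l hl u v => ?_
    exact false_of_prime_dvd hco hl (dvd_add u v) (dvd_sub u v)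
  have hw : 2 ∣ w := by
    refine Int.prime_two.dvd_of_dvd_pow (n := 2) ?_
    rw [← heq]; exact ⟨2 * D ^ 2 * (S ^ 2 - D ^ 2) ^ 2 + 2 * (S ^ 2 + 3 * D ^ 2) ^ 3, by ring⟩
  obtain ⟨z, rfl⟩ := hw
  have hz : (S ^ 2 + 7 * D ^ 2) * (S ^ 4 + 3 * S ^ 2 * D ^ 2 + 4 * D ^ 4) = z ^ 2 := by
    apply mul_left_cancel₀ (four_ne_zero : (4 : ℤ) ≠ 0)
    linear_combination heq
  have hodd : Odd (S ^ 2 + 7 * D ^ 2) := by
    have : Odd ((S + D) ^ 2 + (2 * (3 * D ^ 2 - S * D))) := hP.pow.add_even ⟨3 * D ^ 2 - S * D, by ring⟩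
    rwa [show (S + D) ^ 2 + (2 * (3 * D ^ 2 - S * D)) = S ^ 2 + 7 * D ^ 2 by ring] at this
  have hcop : IsCoprime (S ^ 2 + 7 * D ^ 2) (S ^ 4 + 3 * S ^ 2 * D ^ 2 + 4 * D ^ 4) := by
    rw [show S ^ 4 + 3 * S ^ 2 * D ^ 2 + 4 * D ^ 4
      = 32 * D ^ 4 + (S ^ 2 + 7 * D ^ 2) * (S ^ 2 - 4 * D ^ 2) by ring]
    refine IsCoprime.add_mul_left_right (IsCoprime.mul_right ?_ (IsCoprime.pow_right ?_)) _
    · have : IsCoprime (S ^ 2 + 7 * D ^ 2) (2 : ℤ) :=
        (Int.prime_two.coprime_iff_not_dvd.2 fun h =>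
          (Int.not_even_iff_odd.2 hodd) (even_iff_two_dvd.2 h)).symm
      have h32 := this.pow_right (n := 5); norm_num at h32; exact h32
    · rw [show S ^ 2 + 7 * D ^ 2 = S ^ 2 + D * (7 * D) by ring]
      exact hcSD.pow_left.add_mul_left_left _
  obtain ⟨p, hp⟩ := sq_of_coprime_mul_eq_sq (by positivity) hcop hz
  obtain ⟨q₀, hq₀⟩ := sq_of_coprime_mul_eq_sq (by positivity) hcop.symm (by rw [mul_comm]; exact hz)
  set q := |q₀| with hqdef
  have hq : S ^ 4 + 3 * S ^ 2 * D ^ 2 + 4 * D ^ 4 = q ^ 2 := by rw [hqdef, sq_abs]; exact hq₀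
  have hq0 : 0 ≤ q := abs_nonneg _
  have hSo : Odd S ∧ Even D := by
    have hSD := hP
    rcases Int.even_or_odd S with hS' | hS'
    · exfalso
      have hD' : Odd D := by
        refine Int.not_even_iff_odd.1 fun h => ?_
        exact (Int.not_even_iff_odd.2 hP) (hS'.add h)
      obtain ⟨i, hi⟩ := even_sq_eq hS'
      obtain ⟨j, hj⟩ := odd_sq_eq hD'
      rcases Int.even_or_odd p with hp' | hp'
      · obtain ⟨l, hl⟩ := even_sq_eq hp'; omega
      · obtain ⟨l, hl⟩ := odd_sq_eq hp'; omega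
    · refine ⟨hS', Int.not_odd_iff_even.1 fun h => ?_⟩
      exact (Int.not_even_iff_odd.2 hP) (hS'.add_odd h)
  obtain ⟨hSo, e, rfl⟩ := hSo
  have hqo : Odd q := by
    refine (Int.odd_pow' (n := 2) (by norm_num)).1 ?_
    rw [← hq]
    exact ((hSo.pow).add_even ⟨6 * S ^ 2 * e ^ 2, by ring⟩).add_even ⟨32 * e ^ 4, by ring⟩
  have he0 : e ≠ 0 := by rintro rfl; simp at hK
  have hcSe : IsCoprime S e := by
    rw [show e + e = 2 * e by ring] at hcSD; exact hcSD.of_mul_right_right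
  have hge : S ^ 2 + 6 * e ^ 2 ≤ q := by
    have : (S ^ 2 + 6 * e ^ 2) ^ 2 ≤ q ^ 2 := by rw [← hq]; nlinarith [sq_nonneg (e ^ 2)]
    exact (pow_le_pow_iff_left₀ (by positivity) hq0 two_ne_zero).1 this
  obtain ⟨U, hU⟩ : (2 : ℤ) ∣ q - (S ^ 2 + 6 * e ^ 2) :=
    even_iff_two_dvd.1 (hqo.sub_odd (hSo.pow.add_even ⟨3 * e ^ 2, by ring⟩))
  obtain ⟨V, hV⟩ : (2 : ℤ) ∣ q + (S ^ 2 + 6 * e ^ 2) :=
    even_iff_two_dvd.1 (hqo.add_odd (hSo.pow.add_even ⟨3 * e ^ 2, by ring⟩))
  have hV0 : 0 ≤ V := by nlinarith [sq_nonneg S, sq_nonneg e]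
  have hU0 : 0 ≤ U := by linarith
  have hUV : U * V = 7 * e ^ 4 := by
    apply mul_left_cancel₀ (four_ne_zero : (4 : ℤ) ≠ 0)
    have : (q - (S ^ 2 + 6 * e ^ 2)) * (q + (S ^ 2 + 6 * e ^ 2)) = 28 * e ^ 4 := by
      linear_combination -1 * hq
    rw [hU, hV] at this; linear_combination this
  have hdiff : V - U = S ^ 2 + 6 * e ^ 2 := by linarith
  have hcoUV : IsCoprime U V := by
    refine isCoprime_of_forall_prime fun l hl u v => ?_
    have hl2 : l * l ∣ 7 * e ^ 4 := hUV ▸ mul_dvd_mul u v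
    have hle : l ∣ e := by
      by_contra hle
      have := (hl.coprime_iff_not_dvd).2 hle
      have hsq : Squarefree (7 : ℤ) := by
        have : Prime (7 : ℤ) := by norm_num
        exact this.squarefree
      exact hl.not_isUnit (hsq l ((this.mul_left this).pow_right.dvd_of_dvd_mul_right hl2))
    have : l ∣ S ^ 2 := by
      have h := dvd_sub (dvd_sub v u) (hle.mul_right (6 * e))
      rwa [hdiff, show S ^ 2 + 6 * e ^ 2 - e * (6 * e) = S ^ 2 by ring] at h
    exact false_of_prime_dvd hcSe hl (hl.dvd_of_dvd_pow this) hle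
  obtain ⟨α, β, hαβ, hc, hcase⟩ := split_fourth (p := 7) (k := 1) (f := e) (b := 7)
    (by norm_num) (by norm_num) (by norm_num) hU0 hV0 hcoUV hUV
  rcases hcase with ⟨hUa, hVb⟩ | ⟨hUb, hVa⟩
  · -- the sign giving `S² ≡ 3 (mod 4)`
    have hS2 : S ^ 2 = 7 * (β ^ 2) ^ 2 - (α ^ 2) ^ 2 - 6 * (α ^ 2 * β ^ 2) := by
      rw [← hαβ]; linear_combination -hdiff + hVb - hUa
    have hparity : Odd α ∧ Even β ∨ Even α ∧ Odd β := by
      rcases Int.even_or_odd α with h1 | h1 <;> rcases Int.even_or_odd β with h2 | h2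
      · exact absurd (false_of_prime_dvd hc Int.prime_two (even_iff_two_dvd.1 h1)
          (even_iff_two_dvd.1 h2)) id
      · exact Or.inr ⟨h1, h2⟩
      · exact Or.inl ⟨h1, h2⟩
      · exfalso
        have : Even (V - U) := by
          rw [hVb, hUa]; exact Odd.sub_odd (Odd.mul ⟨3, rfl⟩ h2.pow) h1.pow
        rw [hdiff] at this
        exact (Int.not_even_iff_odd.2 (hSo.pow.add_even ⟨3 * e ^ 2, by ring⟩)) this
    obtain ⟨s, hs⟩ := odd_sq_eq hSo
    rcases hparity with ⟨h1, h2⟩ | ⟨h1, h2⟩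
    · obtain ⟨i, hi⟩ := odd_sq_eq h1
      obtain ⟨j, hj⟩ := even_sq_eq h2
      rw [hs, hi, hj] at hS2
      ring_nf at hS2; omega
    · obtain ⟨i, hi⟩ := even_sq_eq h1
      obtain ⟨j, hj⟩ := odd_sq_eq h2
      rw [hs, hi, hj] at hS2
      ring_nf at hS2; omega
  · have hS2 : S ^ 2 = (α ^ 2 + β ^ 2) * (α ^ 2 - 7 * β ^ 2) := by
      linear_combination -hdiff + hVa - hUb - 6 * hαβ
    have hcop2 : IsCoprime (α ^ 2 + β ^ 2) (α ^ 2 - 7 * β ^ 2) := by
      rw [show α ^ 2 - 7 * β ^ 2 = -8 * β ^ 2 + (α ^ 2 + β ^ 2) * 1 by ring]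
      refine IsCoprime.add_mul_left_right (IsCoprime.mul_right ?_ (IsCoprime.pow_right ?_)) _
      · have : IsCoprime (α ^ 2 + β ^ 2) (2 : ℤ) :=
          (Int.prime_two.coprime_iff_not_dvd.2 fun h2 => by
            have : (2 : ℤ) ∣ S ^ 2 := hS2 ▸ h2.mul_right _
            exact (Int.not_even_iff_odd.2 hSo.pow) (even_iff_two_dvd.2 this)).symm
        have h8 := (this.pow_right (n := 3)).neg_right; norm_num at h8; exact h8
      · rw [show α ^ 2 + β ^ 2 = α ^ 2 + β * β by ring]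
        exact hc.pow_left.add_mul_left_left _
    obtain ⟨s1, hs1⟩ := sq_of_coprime_mul_eq_sq (by positivity) hcop2 hS2.symm
    have hpos : 0 ≤ α ^ 2 - 7 * β ^ 2 := by
      by_contra hneg
      have hβ : β ≠ 0 := by rintro rfl; simp [he0] at hαβ
      have h1 : 0 < α ^ 2 + β ^ 2 := by positivity
      have h2 := mul_neg_of_pos_of_neg h1 (not_le.1 hneg)
      have := sq_nonneg S
      omega
    obtain ⟨s2, hs2⟩ := sq_of_coprime_mul_eq_sq hpos hcop2.symm (by rw [mul_comm]; exact hS2.symm)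
    have hβ : β = 0 := seven_conics hc hs1 hs2
    simp [hβ, he0] at hαβ

/-- Integral form. -/
theorem seven_main_int {P Q w : ℤ} (hco : IsCoprime P Q)
    (heq : (P * Q * (P - Q)) ^ 2 + 4 * (P ^ 2 - P * Q + Q ^ 2) ^ 3 = w ^ 2) :
    P * Q * (P - Q) = 0 := by
  rcases Int.even_or_odd P with hP | hP
  · have hQ : Odd Q := Int.not_even_iff_odd.1 fun h =>
      false_of_prime_dvd hco Int.prime_two (even_iff_two_dvd.1 hP) (even_iff_two_dvd.1 h)
    have h := seven_main_odd (P := Q) (Q := Q - P) (w := w)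
      (by rw [show Q - P = -P + Q * 1 by ring]; exact hco.symm.neg_right.add_mul_left_right _)
      hQ (hQ.sub_even hP) (by linear_combination heq)
    linear_combination -h
  · rcases Int.even_or_odd Q with hQ | hQ
    · have h := seven_main_odd (P := P) (Q := P - Q) (w := w)
        (by rw [show P - Q = -Q + P * 1 by ring]; exact hco.neg_right.add_mul_left_right _)
        hP (hP.sub_even hQ) (by linear_combination heq)
      linear_combination h
    · exact seven_main_odd hco hP hQ heq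

/-- `K² + 4R³` is a rational square only if `K = 0`. -/
theorem seven_main {P Q w : ℚ}
    (heq : (P * Q * (P - Q)) ^ 2 + 4 * (P ^ 2 - P * Q + Q ^ 2) ^ 3 = w ^ 2) :
    P * Q * (P - Q) = 0 := by
  by_contra hK
  have hQ : Q ≠ 0 := by rintro rfl; simp at hK
  set r : ℚ := P / Q with hr
  have heq' : (r * (r - 1)) ^ 2 + 4 * (r ^ 2 - r + 1) ^ 3 = (w / Q ^ 3) ^ 2 := by
    rw [div_pow w, ← heq, hr]; field_simp
  set u := r.num with hu
  set v : ℤ := (r.den : ℤ) with hv
  have hruv : r = u / v := by rw [hu, hv]; exact r.num_div_den.symm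
  have hv0 : (v : ℚ) ≠ 0 := by rw [hv]; exact_mod_cast r.den_nz
  obtain ⟨z, hz⟩ : ∃ z : ℤ, (u * v * (u - v)) ^ 2 + 4 * (u ^ 2 - u * v + v ^ 2) ^ 3 = z ^ 2 := by
    have hq : (((u * v * (u - v)) ^ 2 + 4 * (u ^ 2 - u * v + v ^ 2) ^ 3 : ℤ) : ℚ)
        = (w / Q ^ 3 * v ^ 3) ^ 2 := by
      rw [mul_pow _ ((v : ℚ) ^ 3), ← heq', hruv]; push_cast; field_simp
    obtain ⟨z, hz⟩ := Rat.isSquare_intCast_iff.1 ⟨w / Q ^ 3 * v ^ 3, by rw [hq]; ring⟩
    exact ⟨z, by rw [hz]; ring⟩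
  have h0 := seven_main_int (by rw [hu, hv]; exact r.isCoprime_num_den) hz
  apply hK
  have hP : P = r * Q := by rw [hr, div_mul_cancel₀ _ hQ]
  have h0' : (u : ℚ) * v * (u - v) = 0 := by exact_mod_cast h0
  rw [hP, hruv]
  have h1 : (u : ℚ) * (u - v) = 0 := by
    apply mul_left_cancel₀ hv0
    linear_combination h0'
  field_simp
  linear_combination (Q ^ 3) * h1

end FLTAgent.XSmall
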