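import Fermat.Agent.EllLocal.VarChange

/-!
# Tate normal form at a point of order at least four

The parameters `bInv`, `cInv` of a point, invariant under negation and changes of variables;
`exists_tnf`: the curve is isomorphic to `tnf b c` with the point at the origin; and the first
six multiples of the origin.
-/

set_option autoImplicit false

namespace FLTAgent.XSmall

open WeierstrassCurve WeierstrassCurve.Affine
open FLTAgent.EllLocal

variable {K : Type*} [Field K]

/-- `2y + a₁x + a₃`. -/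
def tA3 (W : Affine K) (x y : K) : K := 2 * y + W.a₁ * x + W.a₃

/-- The slope of the tangent at `(x, y)`. -/
def tLam (W : Affine K) (x y : K) : K :=
  (3 * x ^ 2 + 2 * W.a₂ * x + W.a₄ - W.a₁ * y) / tA3 W x y

/-- The `a₂`-coefficient after moving `(x, y)` to the origin with horizontal tangent. -/
def tA2 (W : Affine K) (x y : K) : K :=
  W.a₂ + 3 * x - tLam W x y * W.a₁ - tLam W x y ^ 2

/-- The `a₁`-coefficient after moving `(x, y)` to the origin with horizontal tangent. -/
def tA1 (W : Affine K) (x y : K) : K := W.a₁ + 2 * tLam W x y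

/-- The parameter `b` of the Tate normal form at `(x, y)`. -/
def bInv (W : Affine K) (x y : K) : K := -tA2 W x y ^ 3 / tA3 W x y ^ 2

/-- The parameter `c` of the Tate normal form at `(x, y)`. -/
def cInv (W : Affine K) (x y : K) : K := 1 - tA1 W x y * tA2 W x y / tA3 W x y

/-- The Tate normal form. -/
def tnf (b c : K) : Affine K := (⟨1 - c, -b, -b, 0, 0⟩ : WeierstrassCurve K)

@[simp] lemma tnf_a₁ (b c : K) : (tnf b c).a₁ = 1 - c := rfl
@[simp] lemma tnf_a₂ (b c : K) : (tnf b c).a₂ = -b := rfl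
@[simp] lemma tnf_a₃ (b c : K) : (tnf b c).a₃ = -b := rfl
@[simp] lemma tnf_a₄ (b c : K) : (tnf b c).a₄ = 0 := rfl
@[simp] lemma tnf_a₆ (b c : K) : (tnf b c).a₆ = 0 := rfl

lemma inv_negY (W : Affine K) (x y : K) :
    bInv W x (W.negY x y) = bInv W x y ∧ cInv W x (W.negY x y) = cInv W x y := by
  have e3 : tA3 W x (W.negY x y) = -tA3 W x y := by simp only [tA3, negY]; ring
  by_cases h : tA3 W x y = 0
  · have : W.negY x y = y := by simp only [negY, tA3] at h ⊢; linear_combination -h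
    rw [this]; exact ⟨rfl, rfl⟩
  · have el : tLam W x (W.negY x y) = -tLam W x y - W.a₁ := by
      rw [tLam, tLam, e3]
      field_simp
      simp only [negY, tA3]
      ring
    have e2 : tA2 W x (W.negY x y) = tA2 W x y := by simp only [tA2, el]; ring
    have e1 : tA1 W x (W.negY x y) = -tA1 W x y := by simp only [tA1, el]; ring
    refine ⟨?_, ?_⟩
    · rw [bInv, bInv, e2, e3, neg_sq]
    · rw [cInv, cInv, e1, e2, e3, neg_mul, neg_div_neg_eq]

lemma inv_vc (W : Affine K) (C : VariableChange K) {x y : K} (h : tA3 W x y ≠ 0) :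
    bInv (C • W).toAffine (vcX C x) (vcY C x y) = bInv W x y ∧
      cInv (C • W).toAffine (vcX C x) (vcY C x y) = cInv W x y := by
  set v : K := ((C.u⁻¹ : Kˣ) : K) with hv
  have hv0 : v ≠ 0 := Units.ne_zero _
  have e3 : tA3 (C • W).toAffine (vcX C x) (vcY C x y) = v ^ 3 * tA3 W x y := by
    simp only [tA3, variableChange_def, vcX, vcY, ← hv]; ring
  have el : tLam (C • W).toAffine (vcX C x) (vcY C x y) = v * (tLam W x y - C.s) := by
    rw [tLam, tLam, e3]
    field_simp
    simp only [tA3, variableChange_def, vcX, vcY, ← hv]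
    ring
  have e2 : tA2 (C • W).toAffine (vcX C x) (vcY C x y) = v ^ 2 * tA2 W x y := by
    simp only [tA2, el]
    simp only [variableChange_def, vcX, ← hv]; ring
  have e1 : tA1 (C • W).toAffine (vcX C x) (vcY C x y) = v * tA1 W x y := by
    simp only [tA1, el]
    simp only [variableChange_def, ← hv]; ring
  constructor
  · rw [bInv, bInv, e2, e3]; field_simp
  · rw [cInv, cInv, e1, e2, e3]; field_simp

lemma nonsingular_origin {b c : K} (hb : b ≠ 0) : (tnf b c).Nonsingular 0 0 := by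
  rw [nonsingular_iff']
  exact ⟨by rw [equation_iff']; simp, Or.inr (by simpa using hb)⟩

variable [DecidableEq K]

/-- The origin of the Tate normal form. -/
def origin {b c : K} (hb : b ≠ 0) : (tnf b c).Point := Point.some 0 0 (nonsingular_origin hb)

omit [DecidableEq K] in
lemma some_congr {W : Affine K} {x y x' y' : K} {h : W.Nonsingular x y} (hx : x = x') (hy : y = y') :
    ∃ h', Point.some x y h = Point.some x' y' h' := by
  subst hx; subst hy; exact ⟨h, rfl⟩

lemma two_nsmul_eq_zero {W : Affine K} {x y : K} (h : W.Nonsingular x y) (h3 : tA3 W x y = 0) :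
    2 • Point.some x y h = 0 := by
  rw [two_nsmul]
  exact Point.add_self_of_Y_eq (by simp only [negY, tA3] at h3 ⊢; linear_combination h3)

lemma exists_two_nsmul {W : Affine K} {x y : K} (h : W.Nonsingular x y) (h3 : tA3 W x y ≠ 0) :
    ∃ h', 2 • Point.some x y h = Point.some (W.addX x x (tLam W x y))
      (W.addY x x y (tLam W x y)) h' := by
  have hy : y ≠ W.negY x y := fun e => h3 (by simp only [negY, tA3] at e ⊢; linear_combination e)
  have hsl : W.slope x x y y = tLam W x y := by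
    rw [slope_of_Y_ne rfl hy, tLam, tA3]
    congr 1
    simp only [negY]; ring
  rw [two_nsmul, Point.add_self_of_Y_ne hy]
  exact some_congr (by rw [hsl]) (by rw [hsl])

lemma tA2_ne_zero {W : Affine K} {x y : K} {h : W.Nonsingular x y} (h3 : tA3 W x y ≠ 0)
    (hP : 3 • Point.some x y h ≠ 0) : tA2 W x y ≠ 0 := by
  intro h2
  obtain ⟨h', e⟩ := exists_two_nsmul h h3
  have hx : W.addX x x (tLam W x y) = x := by
    simp only [addX, tA2] at h2 ⊢; linear_combination -h2
  have hy : W.addY x x y (tLam W x y) = W.negY x y := by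
    simp only [addY, negAddY, hx]; ring_nf
  apply hP
  rw [succ_nsmul, e]
  exact Point.add_of_Y_eq hx hy

omit [DecidableEq K] in
lemma vc_eq_tnf {W : Affine K} {x y : K} (h : W.Equation x y) (h3 : tA3 W x y ≠ 0)
    (h2 : tA2 W x y ≠ 0) :
    ((⟨Units.mk0 (tA3 W x y / tA2 W x y) (div_ne_zero h3 h2), x, tLam W x y, y⟩ :
      VariableChange K) • W).toAffine = tnf (bInv W x y) (cInv W x y) := by
  have hl : tLam W x y * tA3 W x y = 3 * x ^ 2 + 2 * W.a₂ * x + W.a₄ - W.a₁ * y :=
    div_mul_cancel₀ _ h3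
  rw [equation_iff'] at h
  ext
  · simp [variableChange_def, tnf, cInv, tA1]
    field_simp
  · simp [variableChange_def, tnf, bInv]
    field_simp
    simp [tA2]; ring
  · simp [variableChange_def, tnf, bInv]
    field_simp
    simp [tA3]; ring
  · simp [variableChange_def, tnf]
    right
    simp only [tA3] at hl
    linear_combination -hl
  · simp [variableChange_def, tnf]
    right
    linear_combination -h

/-- Reduction to the Tate normal form: an isomorphism preserving the invariants. -/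
theorem exists_tnf {W : Affine K} {x y : K} (h : W.Nonsingular x y)
    (hP2 : 2 • Point.some x y h ≠ 0) (hP3 : 3 • Point.some x y h ≠ 0) :
    ∃ (hb : bInv W x y ≠ 0) (u : K) (φ : W.Point →+ (tnf (bInv W x y) (cInv W x y)).Point),
      u ≠ 0 ∧ Function.Injective φ ∧ φ (Point.some x y h) = origin hb ∧
      W.c₄ = u ^ 4 * (tnf (bInv W x y) (cInv W x y)).c₄ ∧
      W.Δ = u ^ 12 * (tnf (bInv W x y) (cInv W x y)).Δ ∧
      ∀ x₁ y₁ h₁, tA3 W x₁ y₁ ≠ 0 → ∃ x₂ y₂ h₂,
        φ (Point.some x₁ y₁ h₁) = Point.some x₂ y₂ h₂ ∧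
        bInv (tnf (bInv W x y) (cInv W x y)) x₂ y₂ = bInv W x₁ y₁ ∧
        cInv (tnf (bInv W x y) (cInv W x y)) x₂ y₂ = cInv W x₁ y₁ := by
  have h3 : tA3 W x y ≠ 0 := fun e => hP2 (two_nsmul_eq_zero h e)
  have h2 : tA2 W x y ≠ 0 := tA2_ne_zero h3 hP3
  have hb : bInv W x y ≠ 0 := div_ne_zero (neg_ne_zero.2 (pow_ne_zero 3 h2)) (pow_ne_zero 2 h3)
  set C : VariableChange K :=
    ⟨Units.mk0 (tA3 W x y / tA2 W x y) (div_ne_zero h3 h2), x, tLam W x y, y⟩ with hC
  have heq : (C • W).toAffine = tnf (bInv W x y) (cInv W x y) := vc_eq_tnf h.1 h3 h2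
  have hx0 : vcX C x = 0 := by simp [vcX, hC]
  have hy0 : vcY C x y = 0 := by simp [vcY, hC]
  refine ⟨hb, C.u, ?_⟩
  have gen : ∀ (W' : Affine K), (C • W).toAffine = W' → ∀ (h0 : W'.Nonsingular 0 0),
      ∃ φ : W.Point →+ W'.Point, Function.Injective φ ∧
        φ (Point.some x y h) = Point.some 0 0 h0 ∧
        W.c₄ = (C.u : K) ^ 4 * W'.c₄ ∧ W.Δ = (C.u : K) ^ 12 * W'.Δ ∧
        ∀ x₁ y₁ h₁, tA3 W x₁ y₁ ≠ 0 → ∃ x₂ y₂ h₂, φ (Point.some x₁ y₁ h₁) = Point.some x₂ y₂ h₂ ∧
          bInv W' x₂ y₂ = bInv W x₁ y₁ ∧ cInv W' x₂ y₂ = cInv W x₁ y₁ := by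
    rintro _ rfl h0
    refine ⟨vcPoint W C, vcPoint_injective C, ?_, ?_, ?_, ?_⟩
    · rw [vcPoint_some]; simp [hx0, hy0]
    · show _ = _ * (C • W).c₄
      rw [variableChange_c₄, ← mul_assoc, ← mul_pow, Units.mul_inv, one_pow, one_mul]
    · show _ = _ * (C • W).Δ
      rw [variableChange_Δ, ← mul_assoc, ← mul_pow, Units.mul_inv, one_pow, one_mul]
    · intro x₁ y₁ h₁ hne
      exact ⟨_, _, _, vcPoint_some C h₁, inv_vc W C hne⟩
  obtain ⟨φ, hφ, hφ0, hc4, hΔ, hinv⟩ := gen _ heq (nonsingular_origin hb)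
  exact ⟨φ, Units.ne_zero _, hφ, hφ0, hc4, hΔ, hinv⟩

section Multiples

variable {b c : K} (hb : b ≠ 0)

lemma add_eq_of_slope {W : Affine K} {x₁ y₁ x₂ y₂ x₃ y₃ l : K} {h₁ : W.Nonsingular x₁ y₁}
    {h₂ : W.Nonsingular x₂ y₂} (hx : x₁ ≠ x₂) (hl : (y₁ - y₂) / (x₁ - x₂) = l)
    (hX : l ^ 2 + W.a₁ * l - W.a₂ - x₁ - x₂ = x₃)
    (hY : -(l * (x₃ - x₁) + y₁) - W.a₁ * x₃ - W.a₃ = y₃) :
    ∃ h₃, Point.some x₁ y₁ h₁ + Point.some x₂ y₂ h₂ = Point.some x₃ y₃ h₃ := by
  rw [Point.add_of_X_ne hx]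
  refine some_congr ?_ ?_
  · rw [slope_of_X_ne hx, hl]; exact hX
  · rw [slope_of_X_ne hx, hl]
    simp only [addY, negY, negAddY, addX]
    rw [hX]; exact hY

omit [DecidableEq K] in
lemma tLam_origin : tLam (tnf b c) 0 0 = 0 := by simp [tLam]

lemma two_nsmul_origin : ∃ h, 2 • origin (c := c) hb = Point.some b (b * c) h := by
  have h3 : tA3 (tnf b c) 0 0 ≠ 0 := by simpa [tA3] using hb
  obtain ⟨h', e⟩ := exists_two_nsmul (nonsingular_origin (c := c) hb) h3
  rw [origin, e]
  refine some_congr ?_ ?_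
  · simp [addX, tLam_origin]
  · simp [addY, negY, negAddY, addX, tLam_origin]; ring

lemma three_nsmul_origin : ∃ h, 3 • origin (c := c) hb = Point.some c (b - c) h := by
  obtain ⟨h', e⟩ := two_nsmul_origin (c := c) hb
  rw [succ_nsmul, e, origin]
  refine add_eq_of_slope hb (l := c) ?_ ?_ ?_
  · rw [sub_zero, sub_zero]; field_simp
  · simp; ring
  · simp; ring

omit [DecidableEq K] in
lemma neg_some_eq {W : Affine K} {x y x' y' : K} {h : W.Nonsingular x y} {h' : W.Nonsingular x' y'}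
    (e : Point.some x y h = -Point.some x' y' h') : x = x' ∧ y = W.negY x' y' := by
  rw [Point.neg_some] at e
  simpa using e

end Multiples

section RS

variable {r s : K} (hb : r * s * (r - 1) ≠ 0)

lemma four_nsmul_origin (hc : s * (r - 1) ≠ 0) :
    ∃ h, 4 • origin (c := s * (r - 1)) hb
      = Point.some (r * (r - 1)) (r ^ 2 * (r - 1) * (s - 1)) h := by
  obtain ⟨h', e⟩ := three_nsmul_origin (c := s * (r - 1)) hb
  rw [succ_nsmul, e, origin]
  refine add_eq_of_slope hc (l := r - 1) ?_ ?_ ?_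
  · rw [sub_zero, sub_zero, div_eq_iff hc]; ring
  · simp; ring
  · simp; ring

lemma five_nsmul_origin (hc : s * (r - 1) ≠ 0) :
    ∃ h, 5 • origin (c := s * (r - 1)) hb
      = Point.some (r * s * (s - 1)) (r * s ^ 2 * (r - s)) h := by
  obtain ⟨h', e⟩ := four_nsmul_origin hb hc
  have hr : r * (r - 1) ≠ 0 := by
    intro h0; apply hb; linear_combination s * h0
  rw [succ_nsmul, e, origin]
  refine add_eq_of_slope hr (l := r * (s - 1)) ?_ ?_ ?_
  · rw [sub_zero, sub_zero, div_eq_iff hr]; ring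
  · simp; ring
  · simp; ring

lemma six_nsmul_origin (hc : s * (r - 1) ≠ 0) (hs : s ≠ 1) :
    ∃ h, 6 • origin (c := s * (r - 1)) hb
      = Point.some (s * (r - 1) * (r - s) / (s - 1) ^ 2)
        (-(s * (r - s) / (s - 1)) * (s * (r - 1) * (r - s) / (s - 1) ^ 2)
          - (1 - s * (r - 1)) * (s * (r - 1) * (r - s) / (s - 1) ^ 2) + r * s * (r - 1)) h := by
  obtain ⟨h', e⟩ := five_nsmul_origin hb hc
  have hs' : s - 1 ≠ 0 := sub_ne_zero.2 hs
  have hr : r * s * (s - 1) ≠ 0 := by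
    refine mul_ne_zero ?_ hs'
    intro h0; apply hb; linear_combination (r - 1) * h0
  rw [succ_nsmul, e, origin]
  refine add_eq_of_slope hr (l := s * (r - s) / (s - 1)) ?_ ?_ ?_
  · rw [sub_zero, sub_zero, div_eq_div_iff hr hs']; ring
  · simp; field_simp; ring
  · simp; field_simp; ring

end RS

end FLTAgent.XSmall
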